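import Fermat.Agent.RT.AtPGen.Three

/-!
# Level lowering at `p` for a curve semistable at `p`
-/

set_option autoImplicit false

noncomputable section

open WeierstrassCurve

namespace Fermat.Agent.RT.AtPGen

variable {W : WeierstrassCurve ℤ}

/-- `p` leaves every level it divides exactly, when `p` is small at `p`. -/
theorem residuallyModular_div_p {p : ℕ} (hp : p.Prime) (hp2 : p ≠ 2) (hΔ : W.Δ ≠ 0)
    (hsemi : (p : ℤ) ∣ W.Δ → ¬ (p : ℤ) ∣ W.c₄) (hirr : W.ModRepIsIrreducible p)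
    (hsmall : Lift59.SmallAt W p p) {M : ℕ} (hM : 0 < M) (hpM : p ∣ M) (hp2M : ¬ p ^ 2 ∣ M)
    (hmod : W.IsResiduallyModularOfLevel p M) : W.IsResiduallyModularOfLevel p (M / p) := by
  obtain ⟨N, rfl⟩ := hpM
  rw [Nat.mul_div_cancel_left N hp.pos]
  have hN : N ≠ 0 := fun h => by simp [h] at hM
  have hpN : ¬ p ∣ N := fun h => hp2M (by rw [sq]; exact mul_dvd_mul_left p h)
  have : Fact p.Prime := ⟨hp⟩
  rcases eq_or_ne p 3 with rfl | hp3
  · exact residuallyModular_three hΔ hsemi hirr hsmall hN hpN hmod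
  · exact residuallyModular_of_p_mul hp2 hΔ hsemi hirr hsmall hp3 hN hpN hmod

end Fermat.Agent.RT.AtPGen

end
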