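import Fermat.Agent.RT.Lift59.Mazur.Main

/-!
# Auxiliary primes without semistability

For a quadratic Dirichlet character with modulus prime to `p` there is a good prime where the
character is `-1` and `a_l² ≢ (l + 1)²`: otherwise all of the image would be triangular in the
eigenbasis of an element of trace `0` and determinant `-1`.
-/

set_option autoImplicit false

noncomputable section

open WeierstrassCurve

namespace Fermat.Agent.RT.AtPGen

open Matrix Fermat.Agent.Arith Fermat.Agent.EC.Rep Module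

/-- If `C = diag(1, -1)` and all traces in the coset `c K` satisfy `tr² = (det + 1)²`, then `K`
and `C` are triangular in one of the two orders of the basis. -/
theorem exists_trace_sq_ne {G : Type*} [Group G] {k : Type*} [Field k] (h2 : (2 : k) ≠ 0)
    (r : G →* Matrix (Fin 2) (Fin 2) k) (K : Subgroup G) (c : G)
    (hGK : ∀ g, g ∈ K ∨ c⁻¹ * g ∈ K) (hc : r c = !![1, 0; 0, -1])
    (hdet : ∃ g ∈ K, (r g).det ≠ 1) (hspan : Submodule.span k (Set.range r) = ⊤) :
    ∃ g ∈ K, (r (c * g)).trace ^ 2 ≠ ((r (c * g)).det + 1) ^ 2 := by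
  by_contra hall
  push Not at hall
  have hentry : ∀ g g', r (g * g') 0 0 = r g 0 0 * r g' 0 0 + r g 0 1 * r g' 1 0 ∧
      r (g * g') 0 1 = r g 0 0 * r g' 0 1 + r g 0 1 * r g' 1 1 ∧
      r (g * g') 1 0 = r g 1 0 * r g' 0 0 + r g 1 1 * r g' 1 0 ∧
      r (g * g') 1 1 = r g 1 0 * r g' 0 1 + r g 1 1 * r g' 1 1 := fun g g' => by
    simp [map_mul, mul_apply, Fin.sum_univ_two]
  have hrel : ∀ g ∈ K, (r g 0 0 - r g 1 1) ^ 2 = (1 - (r g).det) ^ 2 := fun g hg => by
    have h := hall g hg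
    obtain ⟨e00, -, -, e11⟩ := hentry c g
    rw [trace_fin_two, e00, e11, map_mul, det_mul] at h
    simp [hc, det_fin_two] at h
    rw [det_fin_two]
    linear_combination h
  have hne0 : ∀ g, (r g).det ≠ 0 := fun g h => by
    have e : (r g⁻¹).det * (r g).det = 1 := by
      rw [← det_mul, ← map_mul, inv_mul_cancel, map_one, det_one]
    rw [h, mul_zero] at e
    exact zero_ne_one e
  have hsum : ∀ g ∈ K, (r g).det ≠ 1 →
      (r g 0 0 + r g 1 1) ^ 2 = (1 + (r g).det) ^ 2 ∧ r g 0 1 * r g 1 0 = 0 := by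
    intro g hg hD
    have h1 := hrel g hg
    have h := hrel (g * g) (K.mul_mem hg hg)
    rw [map_mul, det_mul] at h
    simp only [mul_apply, Fin.sum_univ_two] at h
    have hs : (r g 0 0 + r g 1 1) ^ 2 = (1 + (r g).det) ^ 2 := by
      refine mul_left_cancel₀ (pow_ne_zero 2 (sub_ne_zero.mpr (Ne.symm hD))) ?_
      linear_combination h - (r g 0 0 + r g 1 1) ^ 2 * h1
    refine ⟨hs, ?_⟩
    have h4 : (2 : k) * 2 * (r g 0 1 * r g 1 0) = 0 := by
      rw [det_fin_two] at h1 hs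
      linear_combination hs - h1
    simpa [h2] using h4
  -- elements of determinant `≠ 1` of both triangular shapes do not coexist
  have hmix : ∀ g ∈ K, ∀ g' ∈ K, (r g).det ≠ 1 → (r g').det ≠ 1 → r g 0 1 ≠ 0 →
      r g' 1 0 ≠ 0 → False := by
    intro g hg g' hg' hD hD' hb he
    have he0 : r g 1 0 = 0 := (mul_eq_zero.mp (hsum g hg hD).2).resolve_left hb
    have hb0 : r g' 0 1 = 0 := (mul_eq_zero.mp (hsum g' hg' hD').2).resolve_right he
    have hd : r g 1 1 ≠ 0 := fun h => hne0 g (by rw [det_fin_two, he0, h]; ring)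
    have hd' : r g' 1 1 ≠ 0 := fun h => hne0 g' (by rw [det_fin_two, hb0, h]; ring)
    have hprod : ∀ x ∈ K, r x 0 1 = 0 → r x 1 0 ≠ 0 → r x 1 1 ≠ 0 →
        (r g).det * (r x).det = 1 := by
      intro x hx h01 h10 h11
      by_contra hne
      have hz := (hsum (g * x) (K.mul_mem hg hx) (by rwa [map_mul, det_mul])).2
      obtain ⟨-, e01, e10, -⟩ := hentry g x
      rw [e01, e10, h01, he0] at hz
      simp [hb, hd, h10, h11] at hz
    have i0 := hentry g'⁻¹ g'
    rw [inv_mul_cancel, map_one, hb0] at i0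
    obtain ⟨-, j01, j10, j11⟩ := i0
    simp at j01 j10 j11
    have k01 : r g'⁻¹ 0 1 = 0 := j01.resolve_right hd'
    have k11 : r g'⁻¹ 1 1 ≠ 0 := fun h => by rw [h, zero_mul] at j11; exact one_ne_zero j11
    have k10 : r g'⁻¹ 1 0 ≠ 0 := fun h => by
      rw [h, zero_mul, zero_add, eq_comm, mul_eq_zero] at j10
      exact j10.elim k11 he
    have a1 := hprod g' hg' hb0 he hd'
    have a2 := hprod g'⁻¹ (K.inv_mem hg') k01 k10 k11
    have ai : (r g'⁻¹).det * (r g').det = 1 := by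
      rw [← det_mul, ← map_mul, inv_mul_cancel, map_one, det_one]
    have eD : (r g).det = (r g').det := by linear_combination (r g').det * a2 - (r g).det * ai
    have hm1 : (r g).det = -1 := by
      rcases mul_self_eq_one_iff.mp (show (r g).det * (r g).det = 1 by
        rw [show (r g).det * (r g).det = (r g).det * (r g').det by rw [← eD]]; exact a1) with h | h
      · exact absurd h hD
      · exact h
    have hz : r g 0 0 + r g 1 1 = 0 ∧ r g' 0 0 + r g' 1 1 = 0 := by
      refine ⟨?_, ?_⟩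
      · have := (hsum g hg hD).1
        rw [hm1] at this
        simpa using this
      · have := (hsum g' hg' hD').1
        rw [← eD, hm1] at this
        simpa using this
    have h := hrel (g * g') (K.mul_mem hg hg')
    rw [map_mul, det_mul, a1, sub_self, zero_pow two_ne_zero, ← map_mul, sq_eq_zero_iff] at h
    obtain ⟨e00, -, -, e11⟩ := hentry g g'
    rw [e00, e11, he0, zero_mul, zero_add,
      eq_neg_of_add_eq_zero_right hz.1, eq_neg_of_add_eq_zero_right hz.2] at h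
    exact mul_ne_zero hb he (by linear_combination h)
  obtain ⟨g₀, hg₀, hD₀⟩ := hdet
  -- a common triangular shape
  have htri : ∀ i j : Fin 2, i ≠ j → (∀ g ∈ K, (r g).det ≠ 1 → r g i j = 0) → False := by
    intro i j hij hz
    have hcases : (i = 0 ∧ j = 1) ∨ (i = 1 ∧ j = 0) := by
      fin_cases i <;> fin_cases j <;> simp_all
    have hmulz : ∀ g g', r g' i j = 0 → r (g * g') i j = r g i j * r g' j j := fun g g' h => by
      obtain ⟨-, e01, e10, -⟩ := hentry g g'
      rcases hcases with ⟨rfl, rfl⟩ | ⟨rfl, rfl⟩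
      · rw [e01, h, mul_zero, zero_add]
      · rw [e10, h, mul_zero, add_zero]
    have hK : ∀ g ∈ K, r g i j = 0 := fun g hg => by
      by_cases hD : (r g).det = 1
      · have h := hz (g * g₀) (K.mul_mem hg hg₀) (by rw [map_mul, det_mul, hD, one_mul]; exact hD₀)
        have h0 := hz g₀ hg₀ hD₀
        rw [hmulz g g₀ h0] at h
        refine (mul_eq_zero.mp h).resolve_right fun h' => hne0 g₀ ?_
        rw [det_fin_two]
        rcases hcases with ⟨rfl, rfl⟩ | ⟨rfl, rfl⟩ <;> rw [h0, h'] <;> ring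
      · exact hz g hg hD
    have hall' : ∀ g, r g i j = 0 := fun g => by
      rcases hGK g with hg | hg
      · exact hK g hg
      · rw [show g = c * (c⁻¹ * g) by group, hmulz _ _ (hK _ hg), hc]
        rcases hcases with ⟨rfl, rfl⟩ | ⟨rfl, rfl⟩ <;> simp
    have hle : Submodule.span k (Set.range r) ≤
        LinearMap.ker (Matrix.entryLinearMap k k i j) := Submodule.span_le.mpr (by
      rintro _ ⟨g, rfl⟩
      exact hall' g)
    rw [hspan] at hle
    have := hle (Submodule.mem_top : Matrix.single i j (1 : k) ∈ ⊤)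
    simp at this
  by_cases hup : ∀ g ∈ K, (r g).det ≠ 1 → r g 1 0 = 0
  · exact htri 1 0 (by decide) hup
  · push Not at hup
    obtain ⟨g', hg', hD', he⟩ := hup
    exact htri 0 1 (by decide) fun g hg hD => by
      by_contra hb
      exact hmix g hg g' hg' hD hD' hb he

variable {W : WeierstrassCurve ℤ} {p : ℕ} [Fact p.Prime]

/-- A prime with character `-1` and `a_l² ≢ (l + 1)²`, from an element with these properties. -/
theorem exists_prime_of_element (hΔ : W.Δ ≠ 0) (n : ℕ) [NeZero n] (g : GQ)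
    (hne : LinearMap.trace (ZMod p) _ ((residualRep W p hΔ).ρ g) ^ 2 ≠
      (LinearMap.det ((residualRep W p hΔ).ρ g) + 1) ^ 2) (S : Finset ℕ) :
    ∃ l : ℕ, l.Prime ∧ l ∉ S ∧ W.IsGoodPrimeFor l ∧ l ≠ p ∧
      (W.apOfModel l : ZMod p) ^ 2 ≠ ((l : ZMod p) + 1) ^ 2 ∧
      (l : ZMod n) = (cyclotomicHom n g : ZMod n) := by
  obtain ⟨l, hl, hlS, -, hgood, hlp, A, hA, σ, hσ, hρ, hχ⟩ :=
    Lift59.MazurQ.exists_frobenius_residual (p := p) hΔ n g S
  have htr := Lift59.MazurQ.trace_residualRep_frobenius (hΔ := hΔ) hl hgood hlp hA hσ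
  have hdet : LinearMap.det ((residualRep W p hΔ).ρ σ) = (l : ZMod p) := by
    rw [det_residualRep hΔ (card_rootsOfUnity_qbar p), modularCyclotomicCharacter_frobenius hA hl hσ
      _ fun h => hlp ((Nat.prime_dvd_prime_iff_eq hl Fact.out).mp h)]
  rw [hρ] at htr hdet
  refine ⟨l, hl, hlS, hgood, hlp, ?_, hχ⟩
  rwa [← htr, ← hdet]

/-- **The auxiliary prime for a quadratic character of modulus prime to `p`.** -/
theorem exists_aux_of_quadratic (hp2 : p ≠ 2) (hΔ : W.Δ ≠ 0) (hirr : W.ModRepIsIrreducible p)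
    (n : ℕ) [NeZero n] (hn : ¬ p ∣ n) (hquad : ∀ u : (ZMod n)ˣ, u = 1 ∨ u = -1) (S : Finset ℕ) :
    ∃ l : ℕ, l.Prime ∧ l ∉ S ∧ W.IsGoodPrimeFor l ∧ l ≠ p ∧
      (W.apOfModel l : ZMod p) ^ 2 ≠ ((l : ZMod p) + 1) ^ 2 ∧ (l : ZMod n) = -1 := by
  classical
  have hp : p.Prime := Fact.out
  let χ := cyclotomicHom n
  have : NeZero (n * p) := ⟨mul_ne_zero (NeZero.ne n) hp.ne_zero⟩
  have hcop : Nat.Coprime n p := (hp.coprime_iff_not_dvd.mpr hn).symm
  -- elements with prescribed character and determinant `-1`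
  have hex : ∀ s : ZMod n, IsUnit s → ∃ g : GQ, (χ g : ZMod n) = s ∧
      LinearMap.det ((residualRep W p hΔ).ρ g) = -1 := by
    intro s hs
    obtain ⟨v, hvn, hv, hva⟩ := Nat.forall_exists_prime_gt_and_eq_mod (q := n * p)
      (a := (ZMod.chineseRemainder hcop).symm (s, -1))
      ((show IsUnit ((s, -1) : ZMod n × ZMod p) from
        Prod.isUnit_iff.mpr ⟨hs, isUnit_one.neg⟩).map (ZMod.chineseRemainder hcop).symm) (n * p)
    have hv2 : ((v : ZMod n), (v : ZMod p)) = (s, -1) := by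
      rw [← (ZMod.chineseRemainder hcop).apply_symm_apply (s, -1), ← hva, map_natCast]
      rfl
    obtain ⟨B, hB⟩ := exists_liesOverPrime hv
    obtain ⟨g, hg⟩ := exists_isFrobeniusAt hB hv
    have hvnd : ∀ d, d ∣ n * p → ¬ v ∣ d := fun d hd h => absurd
      (Nat.le_of_dvd (NeZero.pos _) (h.trans hd)) (not_le.mpr hvn)
    refine ⟨g, ?_, ?_⟩
    · rw [cyclotomicHom_frobenius hB hv hg (hvnd n (dvd_mul_right n p))]
      exact congrArg Prod.fst hv2
    · rw [det_residualRep hΔ (card_rootsOfUnity_qbar p),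
        modularCyclotomicCharacter_frobenius hB hv hg _ (hvnd p (dvd_mul_left p n))]
      exact congrArg Prod.snd hv2
  obtain ⟨c, hcχ, hcdet⟩ := hex (-1) isUnit_one.neg
  obtain ⟨k₀, hk₀χ, hk₀det⟩ := hex 1 isUnit_one
  suffices h : ∃ g : GQ, χ g = χ c ∧ LinearMap.trace (ZMod p) _ ((residualRep W p hΔ).ρ g) ^ 2 ≠
      (LinearMap.det ((residualRep W p hΔ).ρ g) + 1) ^ 2 by
    obtain ⟨g, hgχ, hg⟩ := h
    obtain ⟨l, hl, hlS, hgood, hlp, hne, hln⟩ := exists_prime_of_element hΔ n g hg S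
    exact ⟨l, hl, hlS, hgood, hlp, hne, hln.trans ((congrArg Units.val hgχ).trans hcχ)⟩
  by_cases htc : LinearMap.trace (ZMod p) _ ((residualRep W p hΔ).ρ c) = 0
  swap
  · exact ⟨c, rfl, by rw [hcdet, neg_add_cancel, zero_pow two_ne_zero]; exact pow_ne_zero _ htc⟩
  -- the eigenbasis of the image of `c`
  set T := (residualRep W p hΔ).ρ c with hT
  have hT2 : ∀ x, T (T x) = x := fun x => by
    have h := LinearMap.aeval_self_charpoly T
    rw [EC.FrobTrace.charpoly_of_finrank_eq_two (residualRep W p hΔ).finrank_eq, htc, hcdet] at h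
    have h' := LinearMap.congr_fun h x
    simp only [map_add, map_mul, Polynomial.aeval_X, map_zero,
      zero_mul, sub_zero, map_neg, map_one, LinearMap.add_apply, LinearMap.neg_apply,
      Module.End.one_apply, LinearMap.zero_apply, pow_two, Module.End.mul_apply] at h'
    exact add_neg_eq_zero.mp h'
  have h2 : (2 : ZMod p) ≠ 0 := two_ne_zero_zmod hp2
  have hfr := (residualRep W p hΔ).finrank_eq
  obtain ⟨b, e1, e2⟩ := EC.Rep.exists_eigenbasis_of_involution hfr h2 T hT2 hcdet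
  set r := Deform.matRes (residualRep W p hΔ) b with hr
  have happ : ∀ σ, r σ = LinearMap.toMatrixAlgEquiv b ((residualRep W p hΔ).ρ σ) := fun _ => rfl
  have hrc : r c = !![1, 0; 0, -1] := by
    rw [happ, ← hT]
    ext i j
    rw [LinearMap.toMatrixAlgEquiv_apply]
    fin_cases i <;> fin_cases j <;> simp [e1, e2]
  have htr : ∀ σ, (r σ).trace = LinearMap.trace (ZMod p) _ ((residualRep W p hΔ).ρ σ) :=
    fun σ => (LinearMap.trace_eq_matrix_trace (ZMod p) b _).symm
  have hdt : ∀ σ, (r σ).det = LinearMap.det ((residualRep W p hΔ).ρ σ) :=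
    fun σ => LinearMap.det_toMatrix b _
  obtain ⟨g, hg, hne⟩ := exists_trace_sq_ne h2 r χ.ker c (fun g => by
      rcases hquad (χ g) with h | h
      · exact Or.inl h
      · refine Or.inr ?_
        rw [MonoidHom.mem_ker, map_mul, map_inv, h,
          show χ c = -1 from Units.ext (by rw [hcχ, Units.val_neg, Units.val_one]),
          inv_mul_cancel])
    hrc ⟨k₀, Units.ext hk₀χ, by
        rw [hdt, hk₀det]
        exact fun h => h2 (by linear_combination -h)⟩
    (Deform.span_matrix_eq_top _ (isAbsolutelyIrreducible_residualRep hΔ hp2 hirr) b)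
  exact ⟨c * g, by rw [map_mul, MonoidHom.mem_ker.mp hg, mul_one], by rwa [← htr, ← hdt]⟩

/-- **A prime `l ≡ 3 (mod 4)` with `a_l² ≢ (l + 1)²`.** -/
theorem exists_aux_four (hp2 : p ≠ 2) (hΔ : W.Δ ≠ 0) (hirr : W.ModRepIsIrreducible p)
    (S : Finset ℕ) :
    ∃ l : ℕ, l.Prime ∧ l ∉ S ∧ W.IsGoodPrimeFor l ∧ l ≠ p ∧ l % 4 = 3 ∧
      (W.apOfModel l : ZMod p) ^ 2 ≠ ((l : ZMod p) + 1) ^ 2 := by
  have hp : p.Prime := Fact.out
  obtain ⟨l, hl, hlS, hgood, hlp, hne, hl4⟩ := exists_aux_of_quadratic hp2 hΔ hirr 4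
    (fun h => hp2 ((Nat.prime_dvd_prime_iff_eq hp Nat.prime_two).mp
      (hp.dvd_of_dvd_pow (show p ∣ 2 ^ 2 from h)))) (by decide) S
  refine ⟨l, hl, hlS, hgood, hlp, ?_, hne⟩
  have h : ((l + 1 : ℕ) : ZMod 4) = 0 := by push_cast; rw [hl4, neg_add_cancel]
  rw [ZMod.natCast_eq_zero_iff] at h
  omega

/-- **A prime `l ≡ 2 (mod 3)` with `a_l² ≢ (l + 1)²`**, for `p ≠ 3`. -/
theorem exists_aux_three (hp2 : p ≠ 2) (hp3 : p ≠ 3) (hΔ : W.Δ ≠ 0)
    (hirr : W.ModRepIsIrreducible p) (S : Finset ℕ) :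
    ∃ l : ℕ, l.Prime ∧ l ∉ S ∧ W.IsGoodPrimeFor l ∧ l ≠ p ∧ l % 3 = 2 ∧
      (W.apOfModel l : ZMod p) ^ 2 ≠ ((l : ZMod p) + 1) ^ 2 := by
  obtain ⟨l, hl, hlS, hgood, hlp, hne, hl3⟩ := exists_aux_of_quadratic hp2 hΔ hirr 3
    (fun h => hp3 ((Nat.prime_dvd_prime_iff_eq Fact.out Nat.prime_three).mp h)) (by decide) S
  refine ⟨l, hl, hlS, hgood, hlp, ?_, hne⟩
  have h : ((l + 1 : ℕ) : ZMod 3) = 0 := by push_cast; rw [hl3, neg_add_cancel]
  rw [ZMod.natCast_eq_zero_iff] at h
  omega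

end Fermat.Agent.RT.AtPGen

end
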