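import Fermat.Agent.LevelRaising.Commute
import Fermat.Agent.GaloisReps.KummerHecke

/-!
# Gluing homomorphisms from two conjugates of `Γ₀(2 M)` to `Γ₀(M)`

For odd `M` and values killed by three, homomorphisms on `Γ₀(2 M)` and on its conjugate by
`diag(2, 1)` that agree on the intersection come from one on `Γ₀(M)`.
-/

set_option autoImplicit false

noncomputable section

open CongruenceSubgroup
open scoped MatrixGroups

namespace Fermat.Agent.RT.AtPGen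

section Extend

variable {Γ : Type*} [Group Γ] {F : Type*} [AddCommGroup F]

/-- Additive on a subgroup. -/
def IsHomOn (D : Subgroup Γ) (χ : Γ → F) : Prop := ∀ a ∈ D, ∀ b ∈ D, χ (a * b) = χ a + χ b

theorem IsHomOn.map_one {D : Subgroup Γ} {χ : Γ → F} (h : IsHomOn D χ) : χ 1 = 0 := by
  have e := h 1 D.one_mem 1 D.one_mem
  rw [mul_one] at e
  exact left_eq_add.mp e

theorem IsHomOn.map_inv {D : Subgroup Γ} {χ : Γ → F} (h : IsHomOn D χ) {a : Γ} (ha : a ∈ D) :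
    χ a⁻¹ = -χ a := by
  have e := h a ha a⁻¹ (D.inv_mem ha)
  rw [mul_inv_cancel, h.map_one] at e
  exact eq_neg_of_add_eq_zero_right e.symm

theorem IsHomOn.map_zpow {D : Subgroup Γ} {χ : Γ → F} (h : IsHomOn D χ) {a : Γ} (ha : a ∈ D)
    (n : ℤ) : χ (a ^ n) = n • χ a := by
  induction n using Int.induction_on with
  | zero => rw [zpow_zero, h.map_one, zero_zsmul]
  | succ n ih => rw [zpow_add_one, h _ (D.zpow_mem ha _) _ ha, ih, add_zsmul, one_zsmul]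
  | pred n ih =>
    rw [zpow_sub_one, h _ (D.zpow_mem ha _) _ (D.inv_mem ha), ih, h.map_inv ha, sub_zsmul,
      one_zsmul]

/-- Extension along an element normalising the subgroup and fixing the homomorphism. -/
theorem exists_extend {D C : Subgroup Γ} [D.Normal] (_hDC : D ≤ C) {g : Γ}
    (hgen : ∀ γ ∈ C, ∃ n : ℤ, γ * g ^ (-n) ∈ D) {χ : Γ → F} (hχ : IsHomOn D χ)
    (hinv : ∀ d ∈ D, χ (g * d * g⁻¹) = χ d) (x : F)
    (hpow : ∀ n : ℤ, g ^ n ∈ D → χ (g ^ n) = n • x) :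
    ∃ f : Γ → F, IsHomOn C f ∧ (∀ d ∈ D, f d = χ d) ∧
      ∀ n : ℤ, g ^ n ∈ C → f (g ^ n) = n • x := by
  classical
  let f : Γ → F := fun γ =>
    if h : ∃ n : ℤ, γ * g ^ (-n) ∈ D then χ (γ * g ^ (-h.choose)) + h.choose • x else 0
  have hinvn : ∀ (n : ℤ), ∀ d ∈ D, χ (g ^ n * d * g ^ (-n)) = χ d := by
    intro n
    induction n using Int.induction_on with
    | zero => simp
    | succ n ih =>
      intro d hd
      have hd' := (inferInstance : D.Normal).conj_mem d hd g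
      rw [show g ^ ((n : ℤ) + 1) * d * g ^ (-((n : ℤ) + 1)) =
        g ^ (n : ℤ) * (g * d * g⁻¹) * g ^ (-(n : ℤ)) by group, ih _ hd', hinv d hd]
    | pred n ih =>
      intro d hd
      have hd' := (inferInstance : D.Normal).conj_mem d hd g⁻¹
      rw [inv_inv] at hd'
      rw [show g ^ (-(n : ℤ) - 1) * d * g ^ (-(-(n : ℤ) - 1)) =
        g ^ (-(n : ℤ)) * (g⁻¹ * d * g) * g ^ (-(-(n : ℤ))) by group, ih _ hd']
      have e := hinv _ hd'
      rwa [show g * (g⁻¹ * d * g) * g⁻¹ = d by group, eq_comm] at e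
  have key : ∀ (γ : Γ) (n : ℤ), γ * g ^ (-n) ∈ D → f γ = χ (γ * g ^ (-n)) + n • x := by
    intro γ n hn
    have h : ∃ n : ℤ, γ * g ^ (-n) ∈ D := ⟨n, hn⟩
    rw [show f γ = χ (γ * g ^ (-h.choose)) + h.choose • x from dif_pos h]
    set m := h.choose
    have hm : γ * g ^ (-m) ∈ D := h.choose_spec
    have hnm : g ^ (n - m) ∈ D := by
      have := D.mul_mem (D.inv_mem hn) hm
      rwa [show (γ * g ^ (-n))⁻¹ * (γ * g ^ (-m)) = g ^ (n - m) by group] at this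
    rw [show γ * g ^ (-m) = γ * g ^ (-n) * g ^ (n - m) by group, hχ _ hn _ hnm, hpow _ hnm,
      sub_zsmul, add_assoc]
    abel
  refine ⟨f, fun a ha b hb => ?_, fun d hd => ?_, fun n _ => ?_⟩
  · obtain ⟨n, hn⟩ := hgen a ha
    obtain ⟨m, hm⟩ := hgen b hb
    have hm' : g ^ n * (b * g ^ (-m)) * g ^ (-n) ∈ D := by
      rw [zpow_neg g n]; exact (inferInstance : D.Normal).conj_mem _ hm _
    have e : a * b * g ^ (-(n + m)) =
        a * g ^ (-n) * (g ^ n * (b * g ^ (-m)) * g ^ (-n)) := by group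
    rw [key a n hn, key b m hm, key (a * b) (n + m) (e ▸ D.mul_mem hn hm'), e,
      hχ _ hn _ hm', hinvn n _ hm, add_zsmul]
    abel
  · rw [key d 0 (by simpa using hd)]
    simp
  · rw [key (g ^ n) n (by rw [← zpow_add, add_neg_cancel, zpow_zero]; exact D.one_mem),
      ← zpow_add, add_neg_cancel, zpow_zero, hχ.map_one, zero_add]

end Extend

variable {M : ℕ}

/-- Reduction modulo two. -/
def redTwo (M : ℕ) : Gamma0 M →* SL(2, ZMod 2) :=
  (Matrix.SpecialLinearGroup.map (Int.castRingHom (ZMod 2))).comp (Gamma0 M).subtype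

theorem redTwo_apply (γ : Gamma0 M) (i j : Fin 2) :
    redTwo M γ i j = (((γ : SL(2, ℤ)) i j : ℤ) : ZMod 2) := rfl

theorem mem_Gamma0_two (hM : Odd M) (γ : Gamma0 M) :
    (γ : SL(2, ℤ)) ∈ Gamma0 (M * 2) ↔ redTwo M γ 1 0 = 0 := by
  rw [Gamma0_mem, redTwo_apply, ZMod.intCast_zmod_eq_zero_iff_dvd,
    ZMod.intCast_zmod_eq_zero_iff_dvd]
  have hc : IsCoprime (M : ℤ) (2 : ℤ) :=
    Int.isCoprime_iff_nat_coprime.mpr (by simpa using (Nat.coprime_two_right.mpr hM))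
  push_cast
  exact ⟨fun h => (dvd_mul_left (2 : ℤ) M).trans h, fun h => hc.mul_dvd
    ((ZMod.intCast_zmod_eq_zero_iff_dvd _ _).mp (Gamma0_mem.mp γ.2)) h⟩

theorem sl2_cases (x : SL(2, ZMod 2)) :
    (x.1 1 0 = 0 → x.1 = !![1, 0; 0, 1] ∨ x.1 = !![1, 1; 0, 1]) ∧
    (x.1 0 1 = 0 → x.1 = !![1, 0; 0, 1] ∨ x.1 = !![1, 0; 1, 1]) ∧
    (x.1 = !![1, 0; 0, 1] ∨ x.1 = !![1, 1; 0, 1] ∨ x.1 = !![1, 0; 1, 1] ∨ x.1 = !![0, 1; 1, 1] ∨
      x.1 = !![1, 1; 1, 0] ∨ x.1 = !![0, 1; 1, 0]) := by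
  revert x
  decide

/-- The rotations. -/
def rot : Subgroup SL(2, ZMod 2) where
  carrier := {x | x.1 = !![1, 0; 0, 1] ∨ x.1 = !![0, 1; 1, 1] ∨ x.1 = !![1, 1; 1, 0]}
  one_mem' := Or.inl (by decide)
  mul_mem' := by
    rintro x y (hx | hx | hx) (hy | hy | hy) <;>
      simp only [Set.mem_ofPred_eq, Matrix.SpecialLinearGroup.coe_mul, hx, hy] <;> decide
  inv_mem' := by
    rintro x (hx | hx | hx) <;>
      simp only [Set.mem_ofPred_eq, Matrix.SpecialLinearGroup.coe_inv, hx] <;> decide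

theorem rot_normal : rot.Normal := by
  refine ⟨fun x hx y => ?_⟩
  rcases hx with hx | hx | hx <;>
    rcases (sl2_cases y).2.2 with hy | hy | hy | hy | hy | hy <;>
    · show _ ∨ _ ∨ _
      simp only [Matrix.SpecialLinearGroup.coe_mul, Matrix.SpecialLinearGroup.coe_inv, hx, hy]
      decide

/-- `(a, b; c, d) ↦ (a, b / 2; 2 c, d)`. -/
def downTwo (γ : Gamma0 M) (h : (2 : ℤ) ∣ (γ : SL(2, ℤ)) 0 1) : Gamma0 (M * 2) :=
  GaloisReps.mkGamma0 (M * 2) ((γ : SL(2, ℤ)) 0 0) ((γ : SL(2, ℤ)) 0 1 / 2)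
    (2 * (γ : SL(2, ℤ)) 1 0) ((γ : SL(2, ℤ)) 1 1)
    (by linear_combination (Gamma0.det_eq (γ : SL(2, ℤ))) -
      (γ : SL(2, ℤ)) 1 0 * Int.ediv_mul_cancel h)
    (by
      push_cast
      rw [mul_comm (M : ℤ) 2]
      exact mul_dvd_mul_left 2
        ((ZMod.intCast_zmod_eq_zero_iff_dvd _ _).mp (Gamma0_mem.mp γ.2)))

theorem downTwo_mul (γ δ : Gamma0 M) (hγ : (2 : ℤ) ∣ (γ : SL(2, ℤ)) 0 1)
    (hδ : (2 : ℤ) ∣ (δ : SL(2, ℤ)) 0 1) (h : (2 : ℤ) ∣ ((γ * δ : Gamma0 M) : SL(2, ℤ)) 0 1) :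
    downTwo (γ * δ) h = downTwo γ hγ * downTwo δ hδ := by
  obtain ⟨b, hb⟩ := hγ
  obtain ⟨b', hb'⟩ := hδ
  refine Subtype.ext (Subtype.ext ?_)
  ext i j
  fin_cases i <;> fin_cases j <;>
    simp [downTwo, GaloisReps.coe_mkGamma0, Matrix.mul_apply, Fin.sum_univ_two, hb, hb'] <;>
    ring_nf
  omega

/-- **Gluing.** -/
theorem eq_zero_of_compat (hM : Odd M) (φA φB : Additive (Gamma0 (M * 2)) →+ ZMod 3)
    (compat : ∀ (θ : Gamma0 M) (h : (θ : SL(2, ℤ)) ∈ Gamma0 (M * 2))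
      (h' : (2 : ℤ) ∣ (θ : SL(2, ℤ)) 0 1),
      φA (Additive.ofMul ⟨θ, h⟩) = φB (Additive.ofMul (downTwo θ h')))
    (hnone : ∀ ψ : Additive (Gamma0 M) →+ ZMod 3,
      (∀ (γ : Gamma0 M) (h : (γ : SL(2, ℤ)) ∈ Gamma0 (M * 2)),
        ψ (Additive.ofMul γ) = φA (Additive.ofMul ⟨γ, h⟩)) → ψ = 0) :
    φA = 0 ∧ φB = 0 := by
  classical
  set ρ := redTwo M with hρ
  have h2dvd : ∀ γ : Gamma0 M, ρ γ 0 1 = 0 ↔ (2 : ℤ) ∣ (γ : SL(2, ℤ)) 0 1 := fun γ => by
    rw [hρ, redTwo_apply, ZMod.intCast_zmod_eq_zero_iff_dvd]; rfl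
  let α : Gamma0 M → ZMod 3 := fun γ =>
    if h : (γ : SL(2, ℤ)) ∈ Gamma0 (M * 2) then φA (Additive.ofMul ⟨γ, h⟩) else 0
  let β : Gamma0 M → ZMod 3 := fun γ =>
    if h : (2 : ℤ) ∣ (γ : SL(2, ℤ)) 0 1 then φB (Additive.ofMul (downTwo γ h)) else 0
  let SA : Subgroup (Gamma0 M) := (Gamma0 (M * 2)).subgroupOf (Gamma0 M)
  let SB : Subgroup (Gamma0 M) :=
    { carrier := {γ | (2 : ℤ) ∣ (γ : SL(2, ℤ)) 0 1}
      one_mem' := by simp
      mul_mem' := fun {a b} ha hb => by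
        simp only [Set.mem_ofPred_eq, Subgroup.coe_mul, Matrix.SpecialLinearGroup.coe_mul,
          Matrix.mul_apply, Fin.sum_univ_two] at ha hb ⊢
        exact dvd_add (hb.mul_left _) (ha.mul_right _)
      inv_mem' := fun {a} ha => by
        simp only [Set.mem_ofPred_eq, Subgroup.coe_inv, Matrix.SpecialLinearGroup.coe_inv,
          Matrix.adjugate_fin_two] at ha ⊢
        simpa using ha }
  have hα : IsHomOn SA α := fun a ha b hb => by
    simp only [α, dif_pos (show (a : SL(2, ℤ)) ∈ Gamma0 (M * 2) from ha),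
      dif_pos (show (b : SL(2, ℤ)) ∈ Gamma0 (M * 2) from hb),
      dif_pos (show ((a * b : Gamma0 M) : SL(2, ℤ)) ∈ Gamma0 (M * 2) from SA.mul_mem ha hb),
      ← map_add, ← ofMul_mul]
    rfl
  have hβ : IsHomOn SB β := fun a ha b hb => by
    simp only [β, dif_pos (show (2 : ℤ) ∣ (a : SL(2, ℤ)) 0 1 from ha),
      dif_pos (show (2 : ℤ) ∣ (b : SL(2, ℤ)) 0 1 from hb),
      dif_pos (show (2 : ℤ) ∣ ((a * b : Gamma0 M) : SL(2, ℤ)) 0 1 from SB.mul_mem ha hb),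
      ← map_add, ← ofMul_mul, downTwo_mul a b ha hb]
  have hSA : ∀ γ, ρ γ 1 0 = 0 → γ ∈ SA := fun γ h => (mem_Gamma0_two hM γ).mpr h
  have hSB : ∀ γ, ρ γ 0 1 = 0 → γ ∈ SB := fun γ h => (h2dvd γ).mp h
  have hDA : ∀ d ∈ ρ.ker, d ∈ SA := fun d hd => hSA d (by rw [MonoidHom.mem_ker.mp hd]; rfl)
  have hDB : ∀ d ∈ ρ.ker, d ∈ SB := fun d hd => hSB d (by rw [MonoidHom.mem_ker.mp hd]; rfl)
  have hαβ : ∀ d ∈ ρ.ker, α d = β d := fun d hd => by
    simp only [α, β, dif_pos (show (d : SL(2, ℤ)) ∈ Gamma0 (M * 2) from hDA d hd),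
      dif_pos (show (2 : ℤ) ∣ (d : SL(2, ℤ)) 0 1 from hDB d hd)]
    exact compat d _ _
  -- the two unipotents
  set T₁ : Gamma0 M := GaloisReps.mkGamma0 M 1 1 0 1 (by ring) (dvd_zero _) with hT₁
  set s : Gamma0 M := GaloisReps.mkGamma0 M 1 0 M 1 (by ring) dvd_rfl with hs
  have hMz : ((M : ℕ) : ZMod 2) = 1 := ZMod.natCast_eq_one_iff_odd.mpr hM
  have hρT : (ρ T₁).1 = !![1, 1; 0, 1] := by
    ext i j
    rw [redTwo_apply, hT₁]
    fin_cases i <;> fin_cases j <;> simp [GaloisReps.coe_mkGamma0]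
  have hρs : (ρ s).1 = !![1, 0; 1, 1] := by
    ext i j
    rw [redTwo_apply, hs]
    fin_cases i <;> fin_cases j <;> simp [GaloisReps.coe_mkGamma0, hMz]
  have hTA : T₁ ∈ SA := hSA _ (by rw [hρT]; rfl)
  have hsB : s ∈ SB := hSB _ (by rw [hρs]; rfl)
  set g := T₁ * s with hg
  have hρg : (ρ g).1 = !![0, 1; 1, 1] := by
    rw [hg, map_mul, Matrix.SpecialLinearGroup.coe_mul, hρT, hρs]; decide
  have hker : ∀ γ, (ρ γ).1 = !![1, 0; 0, 1] → γ ∈ ρ.ker := fun γ h =>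
    MonoidHom.mem_ker.mpr (Subtype.ext (h.trans (by decide)))
  have hT2 : T₁ * T₁ ∈ ρ.ker := hker _ (by
    rw [map_mul, Matrix.SpecialLinearGroup.coe_mul, hρT]; decide)
  have hs2 : s * s ∈ ρ.ker := hker _ (by
    rw [map_mul, Matrix.SpecialLinearGroup.coe_mul, hρs]; decide)
  have hg3 : g * g * g ∈ ρ.ker := hker _ (by
    rw [map_mul, map_mul, Matrix.SpecialLinearGroup.coe_mul, Matrix.SpecialLinearGroup.coe_mul,
      hρg]; decide)
  set C : Subgroup (Gamma0 M) := rot.comap ρ with hC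
  have : C.Normal := rot_normal.comap ρ
  have hDC : ρ.ker ≤ C := fun d hd => by
    show ρ d ∈ rot
    rw [MonoidHom.mem_ker.mp hd]
    exact rot.one_mem
  have hgen : ∀ γ ∈ C, ∃ n : ℤ, γ * g ^ (-n) ∈ ρ.ker := by
    rintro γ (h | h | h)
    · exact ⟨0, by simpa using hker γ h⟩
    · refine ⟨1, hker _ ?_⟩
      rw [map_mul, zpow_neg, zpow_one, map_inv, Matrix.SpecialLinearGroup.coe_mul,
        Matrix.SpecialLinearGroup.coe_inv, h, hρg]; decide
    · refine ⟨2, hker _ ?_⟩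
      rw [map_mul, zpow_neg, show g ^ (2 : ℤ) = g * g from zpow_two g, map_inv, map_mul,
        Matrix.SpecialLinearGroup.coe_mul, Matrix.SpecialLinearGroup.coe_inv,
        Matrix.SpecialLinearGroup.coe_mul, h, hρg]; decide
  have h3 : ∀ z : ZMod 3, z + z + z = 0 := by decide
  have h2 : ∀ z : ZMod 3, z + z = 0 → z = 0 := by decide
  have hχ : IsHomOn ρ.ker α := fun a ha b hb => hα a (hDA a ha) b (hDA b hb)
  have hinvT : ∀ d ∈ ρ.ker, α (T₁ * d * T₁⁻¹) = α d := fun d hd => by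
    rw [hα _ (SA.mul_mem hTA (hDA d hd)) _ (SA.inv_mem hTA), hα _ hTA _ (hDA d hd),
      hα.map_inv hTA]
    abel
  have hinvs : ∀ d ∈ ρ.ker, α (s * d * s⁻¹) = α d := fun d hd => by
    rw [hαβ _ ((inferInstance : ρ.ker.Normal).conj_mem d hd s), hαβ _ hd,
      hβ _ (SB.mul_mem hsB (hDB d hd)) _ (SB.inv_mem hsB), hβ _ hsB _ (hDB d hd),
      hβ.map_inv hsB]
    abel
  have hinvg : ∀ d ∈ ρ.ker, α (g * d * g⁻¹) = α d := fun d hd => by
    rw [hg, show T₁ * s * d * (T₁ * s)⁻¹ = T₁ * (s * d * s⁻¹) * T₁⁻¹ by group,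
      hinvT _ ((inferInstance : ρ.ker.Normal).conj_mem d hd s), hinvs d hd]
  -- the third power of the rotation
  set d₀ := T₁ * T₁ * (s * s) with hd₀
  have hd₀D : d₀ ∈ ρ.ker := mul_mem hT2 hs2
  have hTg : T₁ * g * T₁⁻¹ = d₀ * g⁻¹ := by rw [hd₀, hg]; group
  have hg0 : α (g * g * g) = 0 := by
    refine h2 _ ?_
    have hd₁ : g⁻¹ * d₀ * g ∈ ρ.ker := by
      simpa using (inferInstance : ρ.ker.Normal).conj_mem d₀ hd₀D g⁻¹
    have hd₂ : g⁻¹ * (g⁻¹ * d₀ * g) * g ∈ ρ.ker := by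
      simpa using (inferInstance : ρ.ker.Normal).conj_mem _ hd₁ g⁻¹
    have hi : ∀ d ∈ ρ.ker, α (g⁻¹ * d * g) = α d := fun d hd => by
      have hd' : g⁻¹ * d * g ∈ ρ.ker := by
        simpa using (inferInstance : ρ.ker.Normal).conj_mem d hd g⁻¹
      have e := hinvg _ hd'
      rwa [show g * (g⁻¹ * d * g) * g⁻¹ = d by group, eq_comm] at e
    have e : T₁ * (g * g * g) * T₁⁻¹ =
        d₀ * (g⁻¹ * d₀ * g) * (g⁻¹ * (g⁻¹ * d₀ * g) * g) * (g * g * g)⁻¹ := by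
      rw [show T₁ * (g * g * g) * T₁⁻¹ =
        T₁ * g * T₁⁻¹ * (T₁ * g * T₁⁻¹) * (T₁ * g * T₁⁻¹) by group, hTg]
      group
    have := hinvT _ hg3
    rw [e, hχ _ (mul_mem (mul_mem hd₀D hd₁) hd₂) _ (inv_mem hg3),
      hχ _ (mul_mem hd₀D hd₁) _ hd₂, hχ _ hd₀D _ hd₁, hi _ hd₁, hi _ hd₀D, hχ.map_inv hg3,
      h3, zero_add] at this
    exact add_eq_zero_iff_eq_neg.mpr this.symm
  set x := α d₀ + α d₀ with hx
  obtain ⟨f, hf, hfD, hfg⟩ := exists_extend hDC hgen hχ hinvg x fun n hn => by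
    have hρn : ρ g ^ n = 1 := by rw [← map_zpow]; exact MonoidHom.mem_ker.mp hn
    have ho : orderOf (ρ g) = 3 := orderOf_eq_prime
      (by rw [← map_pow]; exact MonoidHom.mem_ker.mp (by rwa [pow_three'])) fun h => by
        have := hρg
        rw [h] at this
        exact absurd this (by decide)
    obtain ⟨k, rfl⟩ := (Int.natCast_dvd_natCast.mpr ho.symm.dvd).trans
      (orderOf_dvd_iff_zpow_eq_one.mpr hρn)
    rw [show g ^ ((3 : ℕ) * k : ℤ) = (g * g * g) ^ k by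
      rw [zpow_mul, zpow_natCast, pow_three'], hχ.map_zpow hg3, hg0, zsmul_zero, mul_zsmul]
    rw [natCast_zsmul, show (3 : ℕ) • (k • x) = k • x + k • x + k • x by
      rw [succ_nsmul, two_nsmul], h3]
  have hgC : g ∈ C := Or.inr (Or.inl hρg)
  have hfg1 : f g = x := by simpa using hfg 1 (by simpa using hgC)
  have hx2 : x + x = α d₀ := by
    have := h3 (α d₀)
    rw [hx]
    linear_combination this
  have hinvC : ∀ c ∈ C, f (T₁ * c * T₁⁻¹) = f c := by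
    intro c hc
    obtain ⟨n, hn⟩ := hgen c hc
    have hcd : T₁ * (c * g ^ (-n)) * T₁⁻¹ ∈ ρ.ker :=
      (inferInstance : ρ.ker.Normal).conj_mem _ hn T₁
    have hgn : g ^ n ∈ C := C.zpow_mem hgC n
    have hTgC : T₁ * g * T₁⁻¹ ∈ C := (inferInstance : C.Normal).conj_mem _ hgC _
    have e1 : f (T₁ * g * T₁⁻¹) = x := by
      rw [hTg, hf _ (hDC hd₀D) _ (C.inv_mem hgC), hfD _ hd₀D, hf.map_inv hgC, hfg1,
        ← hx2]
      abel
    rw [show T₁ * c * T₁⁻¹ = T₁ * (c * g ^ (-n)) * T₁⁻¹ * (T₁ * g * T₁⁻¹) ^ n by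
        rw [conj_zpow]; group,
      hf _ (hDC hcd) _ (C.zpow_mem hTgC n), hfD _ hcd, hinvT _ hn, hf.map_zpow hTgC, e1]
    conv_rhs => rw [show c = c * g ^ (-n) * g ^ n by group]
    rw [hf _ (hDC hn) _ hgn, hfD _ hn, hfg n hgn]
  set y := α T₁ with hy
  have hy2 : α (T₁ * T₁) = y + y := hα _ hTA _ hTA
  have hnotC : T₁ ∉ C := fun h => by
    rcases h with h | h | h <;> · rw [hρT] at h; exact absurd h (by decide)
  obtain ⟨ψ, hψ, hψC, hψT⟩ := exists_extend (le_top : C ≤ ⊤) (g := T₁) (fun γ _ => by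
      rcases (sl2_cases (ρ γ)).2.2 with h | h | h | h | h | h
      · exact ⟨0, by simpa using hDC (hker γ h)⟩
      all_goals
        first
          | (refine ⟨0, ?_⟩
             simp only [neg_zero, zpow_zero, mul_one]
             first
               | exact Or.inr (Or.inl h)
               | exact Or.inr (Or.inr h))
          | (refine ⟨1, ?_⟩
             show _ ∨ _ ∨ _
             rw [map_mul, zpow_neg, zpow_one, map_inv, Matrix.SpecialLinearGroup.coe_mul,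
               Matrix.SpecialLinearGroup.coe_inv, h, hρT]
             decide)) hf hinvC y fun n hn => by
    obtain ⟨m, rfl⟩ | ⟨m, rfl⟩ := Int.even_or_odd n
    · rw [show T₁ ^ (m + m) = (T₁ * T₁) ^ m by rw [← zpow_two, ← zpow_mul]; ring_nf,
        hf.map_zpow (hDC hT2), hfD _ hT2, hy2, zsmul_add, add_zsmul]
    · refine absurd ?_ hnotC
      have h := C.mul_mem (C.zpow_mem (hDC hT2) (-m)) hn
      rwa [show (T₁ * T₁) ^ (-m) * T₁ ^ (2 * m + 1) = T₁ by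
        rw [← zpow_two, ← zpow_mul]; group] at h
  -- the glued homomorphism
  have hψ' : ∀ a b, ψ (a * b) = ψ a + ψ b := fun a b => hψ a trivial b trivial
  let Ψ : Additive (Gamma0 M) →+ ZMod 3 :=
    AddMonoidHom.mk' (fun z => ψ z.toMul) fun a b => hψ' _ _
  have hψ1 : ψ T₁ = y := by simpa using hψT 1 trivial
  have hψD : ∀ d ∈ ρ.ker, ψ d = α d := fun d hd => (hψC d (hDC hd)).trans (hfD d hd)
  have hψA : ∀ a ∈ SA, ψ a = α a := by
    intro a ha
    rcases (sl2_cases (ρ a)).1 ((mem_Gamma0_two hM a).mp ha) with h | h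
    · exact hψD a (hker a h)
    · have hd : a * T₁⁻¹ ∈ ρ.ker := hker _ (by
        rw [map_mul, map_inv, Matrix.SpecialLinearGroup.coe_mul,
          Matrix.SpecialLinearGroup.coe_inv, h, hρT]; decide)
      rw [show a = a * T₁⁻¹ * T₁ by group, hψ', hψD _ hd, hψ1, hα _ (hDA _ hd) _ hTA]
  have hψB : ∀ b ∈ SB, ψ b = β b := by
    intro b hb
    have hψs : ψ s = β s := by
      have e := hψD _ hs2
      rw [hψ', hαβ _ hs2, hβ _ hsB _ hsB] at e
      refine sub_eq_zero.mp (h2 _ ?_)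
      linear_combination e
    rcases (sl2_cases (ρ b)).2.1 ((h2dvd b).mpr hb) with h | h
    · exact (hψD b (hker b h)).trans (hαβ b (hker b h))
    · have hd : b * s⁻¹ ∈ ρ.ker := hker _ (by
        rw [map_mul, map_inv, Matrix.SpecialLinearGroup.coe_mul,
          Matrix.SpecialLinearGroup.coe_inv, h, hρs]; decide)
      rw [show b = b * s⁻¹ * s by group, hψ', hψD _ hd, hψs, hαβ _ hd, hβ _ (hDB _ hd) _ hsB]
  have hzero : ∀ γ, ψ γ = 0 := fun γ => DFunLike.congr_fun (hnone Ψ fun a ha => by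
    show ψ a = _
    rw [hψA a ha]
    exact dif_pos ha) (Additive.ofMul γ)
  refine ⟨AddMonoidHom.ext fun z => ?_, AddMonoidHom.ext fun z => ?_⟩
  · obtain ⟨⟨γ, hγ⟩, rfl⟩ := Additive.ofMul.surjective z
    have hγM : γ ∈ Gamma0 M := by
      rw [Gamma0_mem, ZMod.intCast_zmod_eq_zero_iff_dvd] at hγ ⊢
      exact (Int.natCast_dvd_natCast.mpr (dvd_mul_right M 2)).trans hγ
    have e := hψA ⟨γ, hγM⟩ hγ
    rw [hzero] at e
    simp only [α, dif_pos (show ((⟨γ, hγM⟩ : Gamma0 M) : SL(2, ℤ)) ∈ Gamma0 (M * 2) from hγ)] at e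
    exact e.symm
  · obtain ⟨η, rfl⟩ := Additive.ofMul.surjective z
    obtain ⟨k, hk⟩ := GaloisReps.natCast_dvd_lower η
    push_cast at hk
    set θ : Gamma0 M := GaloisReps.mkGamma0 M ((η : SL(2, ℤ)) 0 0) (2 * (η : SL(2, ℤ)) 0 1)
      ((M : ℤ) * k) ((η : SL(2, ℤ)) 1 1)
      (by linear_combination (Gamma0.det_eq (η : SL(2, ℤ))) + (η : SL(2, ℤ)) 0 1 * hk)
      (dvd_mul_right _ _) with hθ
    have hθ2 : (2 : ℤ) ∣ (θ : SL(2, ℤ)) 0 1 := by simp [hθ, GaloisReps.coe_mkGamma0]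
    have e := hψB θ hθ2
    rw [hzero] at e
    simp only [β, dif_pos hθ2] at e
    rw [show downTwo θ hθ2 = η from Subtype.ext (Subtype.ext (by
      ext i j
      fin_cases i <;> fin_cases j <;>
        simp [downTwo, hθ, GaloisReps.coe_mkGamma0, hk]; ring))] at e
    exact e.symm

/-- A homomorphism on `Γ₀(L)`, `L` odd, killing `Γ₀(2 L)` is zero. -/
theorem eq_zero_of_res {L : ℕ} (hL : Odd L) {A : Type*} [AddCommGroup A]
    (h2 : ∀ z : A, z + z = 0 → z = 0) (ψ : Additive (Gamma0 L) →+ A)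
    (h : ∀ γ : Gamma0 L, (γ : SL(2, ℤ)) ∈ Gamma0 (L * 2) → ψ (Additive.ofMul γ) = 0) :
    ψ = 0 := by
  set T₁ : Gamma0 L := GaloisReps.mkGamma0 L 1 1 0 1 (by ring) (dvd_zero _) with hT
  set s : Gamma0 L := GaloisReps.mkGamma0 L 1 0 L 1 (by ring) dvd_rfl with hs
  have hLz : ((L : ℕ) : ZMod 2) = 1 := ZMod.natCast_eq_one_iff_odd.mpr hL
  have hρT : (redTwo L T₁).1 = !![1, 1; 0, 1] := by
    ext i j
    rw [redTwo_apply, hT]
    fin_cases i <;> fin_cases j <;> simp [GaloisReps.coe_mkGamma0]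
  have hρs : (redTwo L s).1 = !![1, 0; 1, 1] := by
    ext i j
    rw [redTwo_apply, hs]
    fin_cases i <;> fin_cases j <;> simp [GaloisReps.coe_mkGamma0, hLz]
  have hA : ∀ γ, redTwo L γ 1 0 = 0 → ψ (Additive.ofMul γ) = 0 :=
    fun γ hγ => h γ ((mem_Gamma0_two hL γ).mpr hγ)
  have hs0 : ψ (Additive.ofMul s) = 0 := h2 _ (by
    rw [← map_add, ← ofMul_mul]
    exact hA _ (by rw [map_mul, Matrix.SpecialLinearGroup.coe_mul, hρs]; decide))
  have hT0 : ψ (Additive.ofMul T₁) = 0 := hA _ (by rw [hρT]; rfl)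
  refine AddMonoidHom.ext fun z => ?_
  obtain ⟨γ, rfl⟩ := Additive.ofMul.surjective z
  show ψ (Additive.ofMul γ) = 0
  have e1 : ψ (Additive.ofMul (γ * s)) = ψ (Additive.ofMul γ) := by
    rw [ofMul_mul, map_add, hs0, add_zero]
  have e2 : ψ (Additive.ofMul (γ * T₁ * s)) = ψ (Additive.ofMul γ) := by
    rw [ofMul_mul, map_add, hs0, add_zero, ofMul_mul, map_add, hT0, add_zero]
  rcases (sl2_cases (redTwo L γ)).2.2 with h' | h' | h' | h' | h' | h'
  all_goals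
    first
      | exact hA γ (by rw [h']; rfl)
      | (rw [← e1]
         exact hA _ (by rw [map_mul, Matrix.SpecialLinearGroup.coe_mul, h', hρs]; decide))
      | (rw [← e2]
         exact hA _ (by
           rw [map_mul, map_mul, Matrix.SpecialLinearGroup.coe_mul,
             Matrix.SpecialLinearGroup.coe_mul, h', hρT, hρs]; decide))

end Fermat.Agent.RT.AtPGen

end
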