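import Fermat.Agent.RT.AtPGen.Levels
import Fermat.Agent.RT.AtPGen.Glue
import Fermat.Agent.GaloisReps.KummerHecke
import Fermat.Agent.FiniteFlat.TorsionInjective

/-!
# Eigen reductions at level `2 M` coming from level `M`

When a reduction of level `M` has divisors divisible by three at level `2 M` both as `z(q)` and as
`z(q²)`, the homomorphisms of the two lifts glue to `Γ₀(M)`.
-/

set_option autoImplicit false
set_option linter.unusedSectionVars false

noncomputable section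

namespace Fermat.Agent.RT.AtPGen

open AlgebraicCurve ModularCurve Fermat.Agent.Semistable Fermat.Agent.Arith CongruenceSubgroup
open Fermat.Agent.RT.Mazur Fermat.Agent.RT.MazurP Fermat.Agent.NewformLocal.Toric
open Fermat.Agent.RT.MazurQ Fermat.Agent.ModFun Fermat.Agent.JacTorsion
open Matrix.SpecialLinearGroup (mapGL)
open Fermat.Agent.Periods (homT)
open scoped MatrixGroups

theorem zmod_three_two : ∀ z : ZMod 3, z + z = 0 → z = 0 := by decide

section Roots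

variable {L m : ℕ} [NeZero L] [NeZero m]

/-- The monodromies of two functions that agree after the two changes of level. -/
theorem torsionEquiv_compat {f f' : divGrp QBar (FB L) m} {U : FB (L * 2)} (hU : U ≠ 0)
    (h : heckeBetaBar QBar L 2 ((f : (FB L)ˣ) : FB L) =
      U ^ m * heckeAlphaBar QBar L 2 ((f' : (FB L)ˣ) : FB L))
    (γ : Gamma0 (L * 2)) (γ' g : Gamma0 L) (hg : (g : SL(2, ℤ)) = (γ : SL(2, ℤ)))
    (hconj : GaloisReps.diagGL 2 * mapGL ℝ (γ : SL(2, ℤ)) =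
      mapGL ℝ (γ' : SL(2, ℤ)) * GaloisReps.diagGL 2) :
    (torsionEquiv L m (toTorsion (Additive.ofMul f))).1 (Additive.ofMul γ') =
      (torsionEquiv L m (toTorsion (Additive.ofMul f'))).1 (Additive.ofMul g) := by
  obtain ⟨H₀, b, C, -, -, -, -, hroot⟩ := JacTorsion.exists_root (Units.ne_zero
    ((divGrpToC L m f : (FC L)ˣ))) (divGrpToC L m f).2
  obtain ⟨H₀', b', C', -, -, -, -, hroot'⟩ := JacTorsion.exists_root (Units.ne_zero
    ((divGrpToC L m f' : (FC L)ˣ))) (divGrpToC L m f').2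
  set r := algebraMap HolH MerH H₀ / e1 L (toFC L b)
  set r' := algebraMap HolH MerH H₀' / e1 L (toFC L b')
  rw [coe_divGrpToC] at hroot hroot'
  set u := e1 (L * 2) (toC (L * 2) U) with hu
  have eβ := GaloisReps.e1_eq_of_coe_eq_qExpand (d := 2) (toC L ((f : (FB L)ˣ) : FB L))
    (toC (L * 2) (heckeBetaBar QBar L 2 ((f : (FB L)ˣ) : FB L)))
    (by rw [coe_toC, coe_toC, coe_heckeBetaBar, coeffMap_qExpand])
  have eα := GaloisReps.e1_eq_of_coe_eq (M := L * 2) (dvd_mul_right L 2)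
    (toC L ((f' : (FB L)ˣ) : FB L))
    (toC (L * 2) (heckeAlphaBar QBar L 2 ((f' : (FB L)ˣ) : FB L)))
    (by rw [coe_toC, coe_toC, coe_heckeAlphaBar])
  set R := GaloisReps.actGL (GaloisReps.diagGL 2) (GaloisReps.det_diagGL_pos 2) r with hR
  have hpow : R ^ m = (u * r') ^ m := by
    rw [hR, ← map_pow, hroot, ← eβ, mul_pow, hroot', hu, ← eα, h, map_mul, map_mul, map_pow,
      map_pow]
  have hu0 : u ≠ 0 := (map_ne_zero _).mpr ((map_ne_zero _).mpr hU)
  have hr' : r' ≠ 0 := root_ne_zero ((map_ne_zero (toC L)).mpr (Units.ne_zero _)) hroot'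
  obtain ⟨ζ, hζ, e⟩ := exists_const_mul (NeZero.ne m) (mul_ne_zero hu0 hr') hpow
  have hR0 : R ≠ 0 := by
    rw [e]
    refine mul_ne_zero ((map_ne_zero _).mpr ?_) (mul_ne_zero hu0 hr')
    intro h0
    rw [h0, zero_pow (NeZero.ne m)] at hζ
    exact zero_ne_one hζ
  refine eq_of_zetaPow_mul hR0 ?_
  have h1 : actMer (γ : SL(2, ℤ)) R =
      algebraMap ℂ MerH (zetaPow m ((torsionEquiv L m (toTorsion (Additive.ofMul f))).1
        (Additive.ofMul γ'))) * R := by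
    rw [hR, ← GaloisReps.actGL_mapGL,
      ← GaloisReps.actGL_mul (GaloisReps.det_diagGL_pos 2) (GaloisReps.det_mapGL_pos _),
      GaloisReps.actGL_congr hconj _ (GaloisReps.det_mul_pos (GaloisReps.det_mapGL_pos _)
        (GaloisReps.det_diagGL_pos 2)),
      GaloisReps.actGL_mul (GaloisReps.det_mapGL_pos _), GaloisReps.actGL_mapGL, torsionEquiv_spec L m f r hroot γ', map_mul,
      AlgEquiv.commutes]
    rfl
  rw [← h1, e, map_mul, AlgEquiv.commutes, map_mul, hu, JacTorsion.actMer_e1 γ.2, ← hg,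
    torsionEquiv_spec L m f' r' hroot' g]
  simp only [zetaPow]
  ring

end Roots

variable {A : ValuationSubring QBar} {q : ℕ} [hq : Fact q.Prime] (hA : A.LiesOverPrime q)
  [CharP (Res A) q] [IsAlgClosed (Res A)]

section Lift

variable {L p : ℕ} [NeZero L] [Fact p.Prime] [FF.IsFunctionField (Res A) (KM A L)]
  (hL : (L : Res A) ≠ 0) (hqp : p ≠ q) (hqL : ¬ q ∣ L)
include hA hL hqp hqL

/-- A Kummer function of the special fibre with trivial lift is a power. -/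
theorem exists_eq_pow_of_lift {f : divGrp QBar (FB L) p} {g : divGrp (Res A) (KM A L) p}
    (hf : IsRed A (((f : (FB L)ˣ) : FB L) : LSer)
      (((g : (KM A L)ˣ) : KM A L) : LaurentSeries (Res A)))
    (h : toTorsion (Additive.ofMul f) = 0) :
    ∃ k : KM A L, k ≠ 0 ∧ ((g : (KM A L)ˣ) : KM A L) = k ^ p := by
  have e := reductionModL_toTorsion hA hL hf
  rw [h] at e
  have e0 : toTorsion (Additive.ofMul g) = 0 := Subtype.ext (e.symm.trans (map_zero _))
  obtain ⟨u, hu⟩ := (JacTorsion.toTorsion_eq_zero_iff g).mp e0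
  exact ⟨(u : KM A L), u.ne_zero,
    (congrArg (fun v : (KM A L)ˣ => (v : KM A L)) hu.symm).trans (Units.val_pow_eq_pow_val u p)⟩

end Lift

/-- Pullback keeps divisors divisible. -/
theorem dvd_ord_algHom {N N' m : ℕ} [NeZero N] [NeZero N'] [NeZero m]
    (ι : FB N →ₐ[QBar] FB N') (f : divGrp QBar (FB N) m) (w : Place QBar (FB N')) :
    (m : ℤ) ∣ w.ord (ι ((f : (FB N)ˣ) : FB N)) := by
  rw [Place.ord_restrictAlong ι (FF.isIntegralAlong ι), ← FF.div_apply, ← JacTorsion.smul_divQuot,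
    Finsupp.smul_apply, smul_eq_mul]
  exact (dvd_mul_right _ _).mul_left _

include hA in
/-- **The descent from `2 M` to `M`.** -/
theorem exists_eq_pow_three {M : ℕ} [NeZero M] (hM : Odd M) (hqp : 3 ≠ q) (hq2 : q ≠ 2)
    (hqM : ¬ q ∣ M) [FF.IsFunctionField (Res A) (KM A (M * 2))] {G : ℕ → Prop} {a : ℕ → ℕ}
    (hG : ∀ l, l.Prime → G l → ¬ l ∣ q * (M * 2))
    (hnone : ∀ ψ : Additive (Gamma0 M) →+ ZMod 3,
      (∀ l (hl : l.Prime) (hlM : ¬ l ∣ M), G l → homT hl hlM ℤ ψ = a l • ψ) → ψ = 0)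
    (g₁ g₂ : divGrp (Res A) (KM A (M * 2)) 3)
    (hg : (((g₂ : (KM A (M * 2))ˣ) : KM A (M * 2)) : LaurentSeries (Res A)) =
      qExpand (Res A) 2 (((g₁ : (KM A (M * 2))ˣ) : KM A (M * 2)) : LaurentSeries (Res A)))
    (heig : HeckeEig A (M * 2) 3 G a ((g₂ : (KM A (M * 2))ˣ) : KM A (M * 2))) :
    ∃ k : KM A (M * 2), k ≠ 0 ∧ ((g₁ : (KM A (M * 2))ˣ) : KM A (M * 2)) = k ^ 3 := by
  classical
  have hq' : q.Prime := Fact.out
  have : Fact (Nat.Prime 3) := ⟨Nat.prime_three⟩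
  have h2 : ¬ q ∣ 2 := fun h => hq2 ((Nat.prime_dvd_prime_iff_eq hq' Nat.prime_two).mp h)
  have hqL : ¬ q ∣ M * 2 := fun h => (hq'.dvd_mul.mp h).elim hqM h2
  have hqT : ¬ q ∣ M * 2 * 2 := fun h => (hq'.dvd_mul.mp h).elim hqL h2
  have hL := natCast_res_ne_zero hA hq' hqL
  have hT := natCast_res_ne_zero hA hq' hqT
  have : FF.IsFunctionField (Res A) (KM A (M * 2 * 2)) := isFunctionField_KM A hT
  have hinj : EichlerShimura.InjectiveOnTorsion (M * 2) :=
    FiniteFlat.injectiveOnTorsion_of_lattice (M * 2)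
  obtain ⟨f₁, hf₁⟩ := exists_divGrp_lift hA hL hinj hqp hqL g₁
  obtain ⟨f₂, hf₂⟩ := exists_divGrp_lift hA hL hinj hqp hqL g₂
  -- at level `4 M`
  set F₁ : FB (M * 2 * 2) :=
    heckeBetaBar QBar (M * 2) 2 ((f₁ : (FB (M * 2))ˣ) : FB (M * 2)) with hF₁
  set F₂ : FB (M * 2 * 2) :=
    heckeAlphaBar QBar (M * 2) 2 ((f₂ : (FB (M * 2))ˣ) : FB (M * 2)) with hF₂
  have hF₁0 : F₁ ≠ 0 := (map_ne_zero _).mpr (Units.ne_zero _)
  have hF₂0 : F₂ ≠ 0 := (map_ne_zero _).mpr (Units.ne_zero _)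
  have hd₁ : Units.mk0 F₁ hF₁0 ∈ divGrp QBar (FB (M * 2 * 2)) 3 := fun w =>
    dvd_ord_algHom (heckeBetaBar QBar (M * 2) 2) f₁ w
  have hd₂ : Units.mk0 F₂ hF₂0 ∈ divGrp QBar (FB (M * 2 * 2)) 3 := fun w =>
    dvd_ord_algHom (heckeAlphaBar QBar (M * 2) 2) f₂ w
  set d : divGrp QBar (FB (M * 2 * 2)) 3 := ⟨_, hd₁⟩ * ⟨_, hd₂⟩⁻¹ with hd
  have hr₁ : IsRed A (F₁ : LSer)
      (((g₂ : (KM A (M * 2))ˣ) : KM A (M * 2)) : LaurentSeries (Res A)) := by
    rw [hg, hF₁, coe_heckeBetaBar]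
    exact isRed_qExpand hf₁ 2
  have hr₂ : IsRed A (F₂ : LSer)
      (((g₂ : (KM A (M * 2))ˣ) : KM A (M * 2)) : LaurentSeries (Res A)) := by
    rw [hF₂, coe_heckeAlphaBar]
    exact hf₂
  have hrd : IsRed A (((d : (FB (M * 2 * 2))ˣ) : FB (M * 2 * 2)) : LSer)
      ((algebraMap (Res A) (KM A (M * 2 * 2)) 1 * 1 ^ 3 : KM A (M * 2 * 2)) :
        LaurentSeries (Res A)) := by
    have e : ((algebraMap (Res A) (KM A (M * 2 * 2)) 1 * 1 ^ 3 : KM A (M * 2 * 2)) :
        LaurentSeries (Res A)) =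
        (((g₂ : (KM A (M * 2))ˣ) : KM A (M * 2)) : LaurentSeries (Res A)) *
          ((((g₂ : (KM A (M * 2))ˣ) : KM A (M * 2)) : LaurentSeries (Res A)))⁻¹ := by
      rw [mul_inv_cancel₀ hr₂.1]
      simp
    rw [e]
    have e2 : (((d : (FB (M * 2 * 2))ˣ) : FB (M * 2 * 2)) : LSer) =
        (F₁ : LSer) * (F₂ : LSer)⁻¹ := by
      rw [hd]
      simp
    rw [e2]
    exact hr₁.mul hr₂.inv
  obtain ⟨u, hu⟩ := (JacTorsion.toTorsion_eq_zero_iff _).mp (toTorsion_eq_zero_of_isRed hA hT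
    (FiniteFlat.injectiveOnTorsion_of_lattice (M * 2 * 2)) hqp hqT hrd)
  have hrel : F₁ = (u : FB (M * 2 * 2)) ^ 3 * F₂ := by
    have e := congrArg (fun v : (FB (M * 2 * 2))ˣ => (v : FB (M * 2 * 2))) hu
    simp only [hd, map_mul, map_inv, Subgroup.coe_subtype, powMonoidHom_apply,
      Units.val_pow_eq_pow_val, Units.val_mul, Units.val_mk0, Units.val_inv_eq_inv_val] at e
    rw [e, inv_mul_cancel_right₀ hF₂0]
  -- the homomorphisms
  set φ₁ := (torsionEquiv (M * 2) 3 (toTorsion (Additive.ofMul f₁))).1 with hφ₁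
  set φ₂ := (torsionEquiv (M * 2) 3 (toTorsion (Additive.ofMul f₂))).1 with hφ₂
  set φA := GaloisReps.atkinHom (M * 2) (ZMod 3) φ₂ with hφA
  set φB := GaloisReps.atkinHom (M * 2) (ZMod 3) φ₁ with hφB
  have heig₂ := MazurQ.isEigen_of_isRed hA hL (FiniteFlat.injectiveOnTorsion_of_lattice _) hqp hqL hG hf₂ heig
  have hφAe : ∀ l (hl : l.Prime) (hlL : ¬ l ∣ M * 2), G l → homT hl hlL ℤ φA = a l • φA := by
    intro l hl hlL hGl
    have h := GaloisReps.atkinHom_torsionEquiv_hecke l hl (toTorsion (Additive.ofMul f₂))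
      (a l • toTorsion (Additive.ofMul f₂)) (by
        rw [AddSubgroup.coe_nsmul, heig₂ l hl hGl, natCast_zsmul])
    rw [GaloisReps.homOp, dif_neg hlL, map_nsmul, AddSubgroup.coe_nsmul, map_nsmul] at h
    exact h.symm
  obtain ⟨hA0, hB0⟩ := eq_zero_of_compat hM φA φB (fun θ hθ h' => by
    rw [hφA, hφB, GaloisReps.atkinHom_apply, GaloisReps.atkinHom_apply, hφ₁, hφ₂]
    obtain ⟨k, hk⟩ := h'
    obtain ⟨j, hj⟩ := GaloisReps.natCast_dvd_lower (⟨(θ : SL(2, ℤ)), hθ⟩ : Gamma0 (M * 2))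
    have hj' : (θ : SL(2, ℤ)) 1 0 = ((M * 2 : ℕ) : ℤ) * j := hj
    have hmem : (GaloisReps.atkinConj (M * 2) ⟨(θ : SL(2, ℤ)), hθ⟩ : SL(2, ℤ)) ∈
        Gamma0 (M * 2 * 2) := by
      rw [Gamma0_mem, ZMod.intCast_zmod_eq_zero_iff_dvd]
      refine ⟨-k, ?_⟩
      simp [GaloisReps.atkinConj, GaloisReps.coe_atkinConjFun, hk]
      ring
    refine (torsionEquiv_compat (f := f₁) (f' := f₂) (Units.ne_zero u) hrel ⟨_, hmem⟩ _ _ rfl
      ?_).symm
    have hne : ((M * 2 : ℕ) : ℤ) ≠ 0 := Nat.cast_ne_zero.mpr (NeZero.ne _)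
    apply Units.ext
    ext i l
    fin_cases i <;> fin_cases l <;>
      simp [GaloisReps.atkinConj, GaloisReps.coe_atkinConjFun, downTwo, GaloisReps.coe_mkGamma0,
        Units.val_mul, GaloisReps.coe_diagGL, Matrix.mul_apply, Fin.sum_univ_two, hk, hj',
        mul_left_comm (2 : ℤ)] <;>
      ring)
    fun ψ hψ => hnone ψ fun l hl hlM hGl => by
      have hlL : ¬ l ∣ M * 2 := fun h => hG l hl hGl (dvd_mul_of_dvd_right h q)
      have hres : (LevelRaising.RaiseData.resSys 2 M).apply ψ = φA :=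
        AddMonoidHom.ext fun z => by
          obtain ⟨γ, rfl⟩ := Additive.ofMul.surjective z
          obtain ⟨c, hc⟩ := LevelRaising.exists_res_lift γ
          show (LevelRaising.RaiseData.resSys 2 M).apply ψ (Additive.ofMul γ) =
            φA (Additive.ofMul γ)
          rw [LevelRaising.res_apply ψ γ hc, hψ c (by rw [hc]; exact γ.2)]
          exact congrArg (fun x => φA (Additive.ofMul x)) (Subtype.ext hc)
      refine sub_eq_zero.mp (eq_zero_of_res hM zmod_three_two _ fun γ hγ => ?_)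
      have e : ∀ χ : Additive (Gamma0 M) →+ ZMod 3,
          (LevelRaising.RaiseData.resSys 2 M).apply χ (Additive.ofMul (⟨γ, hγ⟩ : Gamma0 (M * 2))) =
            χ (Additive.ofMul γ) := fun χ =>
        LevelRaising.res_apply χ (⟨γ, hγ⟩ : Gamma0 (M * 2)) rfl
      rw [AddMonoidHom.sub_apply, AddMonoidHom.nsmul_apply, ← e, ← e,
        ← LevelRaising.homT_res ℤ hl hlM hlL, hres, hφAe l hl hlL hGl, AddMonoidHom.nsmul_apply,
        sub_self]
  refine exists_eq_pow_of_lift hA hL hqp hqL hf₁ ((torsionEquiv (M * 2) 3).injective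
    (Subtype.ext ?_))
  rw [map_zero]
  show φ₁ = 0
  have h := congrArg (GaloisReps.atkinHom (M * 2) (ZMod 3)) hB0
  rwa [hφB, GaloisReps.atkinHom_atkinHom, map_zero] at h

end Fermat.Agent.RT.AtPGen

end
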