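import Fermat.Agent.RT.AtPGen.Elliptic
import Fermat.Agent.RT.Lift59.Square.End

/-!
# Eigen homomorphisms of a non-Eisenstein system give eigen classes

At a level prime to `p` when `p = 3`, elliptic points of either order are allowed.
-/

set_option autoImplicit false

noncomputable section

open CongruenceSubgroup WeierstrassCurve
open Fermat.Agent.Periods (homT)
open scoped MatrixGroups

namespace Fermat.Agent.RT.AtPGen

open Fermat.Agent.RT.Lift59 Fermat.Agent.RT.Lift59.Square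

variable {W : WeierstrassCurve ℤ} {p : ℕ} [Fact p.Prime]

/-- An eigen homomorphism of a system that is not Eisenstein is parabolic and kills torsion. -/
theorem mem_ellParHoms_of_eigen (hp2 : p ≠ 2) (hΔ : W.Δ ≠ 0) (hirr : W.ModRepIsIrreducible p)
    {L : ℕ} [NeZero L] (h3L : p = 3 → ¬ 3 ∣ L) {φ : Additive (Gamma0 L) →+ ZMod p} (S : Finset ℕ)
    (heig : ∀ l (hl : l.Prime) (hlL : ¬ l ∣ L), l ∉ S → homT hl hlL ℤ φ = W.apOfModel l • φ) :
    φ ∈ Gamma0.ellParHoms (Gamma0 L) (ZMod p) := by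
  have hp : p.Prime := Fact.out
  refine mem_ellParHoms_of_not_eis hp2 hΔ hirr S heig ?_
  -- trace `± 1`
  intro γ ht
  have h6 : (6 : ZMod p) * φ (Additive.ofMul γ) = 0 := by
    have hγ6 : γ ^ 6 = 1 := Subtype.ext (by
      rw [SubmonoidClass.coe_pow, show 6 = 3 * 2 from rfl, pow_mul]
      rcases cube_of_trace _ ht with e | e <;> rw [e] <;> simp)
    have h := congrArg (fun z => φ (Additive.ofMul z)) hγ6
    simp only [ofMul_pow, map_nsmul, ofMul_one, map_zero, nsmul_eq_mul] at h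
    exact_mod_cast h
  rcases eq_or_ne p 3 with rfl | hp3
  · obtain ⟨ℓ, hℓ, hℓS, -, hℓa⟩ := Curve.exists_wAbar_ne_of_dvd (k := ZMod 3) hp2 hΔ hirr L
      (NeZero.ne L) (S ∪ L.primeFactors)
    simp only [Finset.mem_union, not_or] at hℓS
    have hℓL : ¬ ℓ ∣ L := fun h => hℓS.2 (Nat.mem_primeFactors.2 ⟨hℓ, h, NeZero.ne L⟩)
    have : Fact ℓ.Prime := ⟨hℓ⟩
    have e := homT_apply_trace_one (h3L rfl) hℓ hℓL
      (fun z : ZMod 3 => by rw [nsmul_eq_mul, ZMod.natCast_self, zero_mul]) φ γ ht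
    rw [heig ℓ hℓ hℓL hℓS.1] at e
    change W.apOfModel ℓ • φ (Additive.ofMul γ) = _ at e
    rw [zsmul_eq_mul, nsmul_eq_mul] at e
    push_cast at e
    by_contra hne
    refine hℓa ?_
    have h' := mul_right_cancel₀ hne e
    simpa [wAbar] using h'
  · refine (mul_eq_zero.1 h6).resolve_left fun h => ?_
    have h' : ((2 * 3 : ℕ) : ZMod p) = 0 := by exact_mod_cast h
    rcases hp.dvd_mul.1 ((ZMod.natCast_eq_zero_iff _ _).1 h') with h'' | h''
    · exact hp2 ((Nat.prime_dvd_prime_iff_eq hp Nat.prime_two).1 h'')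
    · exact hp3 ((Nat.prime_dvd_prime_iff_eq hp Nat.prime_three).1 h'')

/-- An eigen homomorphism of a system that is not Eisenstein gives an eigen class of order `p`. -/
theorem exists_eigenclass_of_eigen_hom (hp2 : p ≠ 2) (hΔ : W.Δ ≠ 0)
    (hirr : W.ModRepIsIrreducible p) {L : ℕ} [NeZero L] (h3L : p = 3 → ¬ 3 ∣ L)
    {φ : Additive (Gamma0 L) →+ ZMod p} (hφ : φ ≠ 0) (S : Finset ℕ)
    (heig : ∀ l (hl : l.Prime) (hlL : ¬ l ∣ L), l ∉ S → homT hl hlL ℤ φ = W.apOfModel l • φ)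
    {G : ℕ → Prop} {a : ℕ → ℕ} (hG : ∀ l, l.Prime → G l → l ∉ S ∧ ¬ l ∣ L)
    (ha : ∀ l, l.Prime → G l → (a l : ZMod p) = (W.apOfModel l : ZMod p)) :
    ∃ x : ModularCurve.JZero L, x ≠ 0 ∧ p • x = 0 ∧
      ∀ l (hl : l.Prime), G l → ModularCurve.heckeOperatorBar L ⟨l, hl⟩ x = a l • x := by
  exact exists_eigenclass_of_ellParHom hφ (mem_ellParHoms_of_eigen hp2 hΔ hirr h3L S heig) S heig
    hG ha

end Fermat.Agent.RT.AtPGen

end
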