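import Fermat.Agent.LevelRaising.Cusps.HeckeFun

/-!
# Hecke operators at elements of order three or six

For a level prime to `3` and values killed by `3`, the value of `T_ℓ φ` at an element of trace
`± 1` is `1 + ℓ` times that of `φ`: the representatives moved by the element come in orbits of
three, and at a fixed representative the cocycle is a conjugate of the element in `Γ₀(L)`.
-/

set_option autoImplicit false

noncomputable section

namespace Fermat.Agent.RT.AtPGen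

open CongruenceSubgroup Matrix.SpecialLinearGroup Function
open Fermat.Agent.Periods Fermat.Agent.LevelRaising
open P2MW.S_ModularForm_heckeT_slash_eq_self_of_mem_Gamma0.ModularForm.HeckeSlashInvariance
open scoped MatrixGroups BigOperators Matrix

/-- Entries of a conjugate by a translation. -/
theorem conj_T_zpow_apply (g : SL(2, ℤ)) (k : ℤ) :
    let g' := ModularGroup.T ^ k * g * (ModularGroup.T ^ k)⁻¹
    g' 0 0 = g 0 0 + k * g 1 0 ∧ g' 1 0 = g 1 0 ∧ g' 1 1 = g 1 1 - k * g 1 0 := by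
  refine ⟨?_, ?_, ?_⟩ <;>
  · simp [← zpow_neg, ModularGroup.coe_T_zpow, Matrix.mul_apply, Matrix.vecMul, dotProduct,
      Fin.sum_univ_two]
    try ring

/-- Entries of the conjugate by `S`. -/
theorem conj_S_apply (g : SL(2, ℤ)) :
    let g' := ModularGroup.S * g * ModularGroup.S⁻¹
    g' 0 0 = g 1 1 ∧ g' 1 0 = -g 0 1 ∧ g' 1 1 = g 0 0 := by
  refine ⟨?_, ?_, ?_⟩ <;>
    simp [ModularGroup.S, Matrix.adjugate_fin_two, Matrix.mul_apply, Matrix.vecMul, dotProduct,
      Fin.sum_univ_two]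

theorem lowerLeft_ne_zero {g : SL(2, ℤ)} (h : (g 0 0 + g 1 1) * (g 0 0 + g 1 1) = 1) :
    g 1 0 ≠ 0 := fun h0 => by
  have hd := LevelRaising.det_eq g
  rw [h0, mul_zero, sub_zero] at hd
  nlinarith [sq_nonneg (g 0 0 - g 1 1)]

/-- An element of trace `± 1` is conjugate to the standard one with the same trace and the same
sign of the lower left entry. -/
theorem exists_conj_standard (n : ℕ) : ∀ g : SL(2, ℤ), (g 1 0).natAbs = n →
    (g 0 0 + g 1 1) * (g 0 0 + g 1 1) = 1 →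
    ∃ h : SL(2, ℤ), ((h * g * h⁻¹ : SL(2, ℤ)) : Matrix (Fin 2) (Fin 2) ℤ) =
      !![0, -(g 1 0).sign; (g 1 0).sign, g 0 0 + g 1 1] := by
  induction n using Nat.strong_induction_on with
  | _ n ih =>
    intro g hn ht
    have hd := LevelRaising.det_eq g
    have hc := lowerLeft_ne_zero ht
    by_cases h1 : g 1 0 * g 1 0 = 1
    · obtain ⟨e00, e10, e11⟩ := conj_T_zpow_apply g (-(g 0 0 * g 1 0))
      set g' := ModularGroup.T ^ (-(g 0 0 * g 1 0)) * g *
        (ModularGroup.T ^ (-(g 0 0 * g 1 0)))⁻¹ with hg'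
      refine ⟨ModularGroup.T ^ (-(g 0 0 * g 1 0)), ?_⟩
      rw [← hg']
      have hs : (g 1 0).sign = g 1 0 := by
        rcases mul_self_eq_one_iff.mp h1 with e | e <;> rw [e] <;> rfl
      have z00 : g' 0 0 = 0 := by rw [e00]; linear_combination -(g 0 0) * h1
      have z11 : g' 1 1 = g 0 0 + g 1 1 := by rw [e11]; linear_combination (g 0 0) * h1
      have z01 : g' 0 1 = -g 1 0 := by
        have hd' := LevelRaising.det_eq g'
        rw [z00, e10] at hd'
        linear_combination -(g 1 0) * hd' - g' 0 1 * h1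
      ext i j
      fin_cases i <;> fin_cases j <;> simp [z00, z01, z11, e10, hs]
    · set c := g 1 0 with hcdef
      have hm : 0 < (2 * c.natAbs : ℕ) := by
        have := Int.natAbs_pos.mpr hc
        omega
      set r := (g 0 0 - g 1 1).bmod (2 * c.natAbs) with hr
      obtain ⟨k, hk⟩ : ∃ k : ℤ, r = g 0 0 - g 1 1 + 2 * k * c := by
        obtain ⟨k₀, hk₀⟩ : ((2 * c.natAbs : ℕ) : ℤ) ∣ r - (g 0 0 - g 1 1) :=
          (Int.modEq_iff_dvd.mp (Int.bmod_emod (x := g 0 0 - g 1 1) (m := 2 * c.natAbs)).symm)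
        rcases Int.natAbs_eq c with e | e
        · exact ⟨k₀, by simp only [Nat.cast_mul, Nat.cast_ofNat] at hk₀; linear_combination hk₀ - 2 * k₀ * e⟩
        · exact ⟨-k₀, by simp only [Nat.cast_mul, Nat.cast_ofNat] at hk₀; linear_combination hk₀ + 2 * k₀ * e⟩
      have hr1 : -(c.natAbs : ℤ) ≤ r := by
        have := Int.le_bmod (x := g 0 0 - g 1 1) hm
        simp only [Nat.cast_mul, Nat.cast_ofNat] at this
        rw [hr]; omega
      have hr2 : r ≤ (c.natAbs : ℤ) := by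
        have := Int.bmod_lt (x := g 0 0 - g 1 1) hm
        simp only [Nat.cast_mul, Nat.cast_ofNat] at this
        rw [hr]; omega
      obtain ⟨e00, e10, e11⟩ := conj_T_zpow_apply g k
      set g' := ModularGroup.T ^ k * g * (ModularGroup.T ^ k)⁻¹ with hg'
      obtain ⟨f00, f10, f11⟩ := conj_S_apply g'
      set g'' := ModularGroup.S * g' * ModularGroup.S⁻¹ with hg''
      have hd' := LevelRaising.det_eq g'
      have hdisc : r * r + 4 * (g' 0 1 * c) = -3 := by
        rw [e00, e11, e10, ← hcdef] at hd'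
        rw [hk]
        linear_combination ht - 4 * hd'
      have hc1 : 2 ≤ c ∨ c ≤ -2 := by
        by_contra h
        obtain h' | h' : c = 1 ∨ c = -1 := by omega
        · exact h1 (by rw [h']; rfl)
        · exact h1 (by rw [h']; rfl)
      have hc2 : 4 ≤ c * c := by rcases hc1 with h | h <;> nlinarith
      have hrr : r * r ≤ c * c := by
        rcases Int.natAbs_eq c with e | e <;>
          nlinarith [mul_nonneg (sub_nonneg.mpr hr1) (sub_nonneg.mpr hr2)]
      have hneg : g' 0 1 * c < 0 := by nlinarith [mul_self_nonneg r]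
      have hlt : (g'' 1 0).natAbs < n := by
        rw [f10, Int.natAbs_neg, ← hn, Int.natAbs_lt_iff_sq_lt]
        by_contra hle
        rw [not_lt] at hle
        nlinarith [mul_self_nonneg r, mul_pos (neg_pos.mpr hneg) (neg_pos.mpr hneg)]
      obtain ⟨h, hh⟩ := ih _ hlt g'' rfl (by rw [f00, f11, e00, e11]; linear_combination ht)
      have hsign : (g'' 1 0).sign = c.sign := by
        rw [f10]
        rcases lt_or_gt_of_ne hc with hlt' | hgt
        · rw [Int.sign_eq_neg_one_of_neg hlt', Int.sign_eq_neg_one_of_neg (by nlinarith)]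
        · rw [Int.sign_eq_one_of_pos hgt, Int.sign_eq_one_of_pos (by nlinarith)]
      refine ⟨h * ModularGroup.S * ModularGroup.T ^ k, ?_⟩
      rw [show h * ModularGroup.S * ModularGroup.T ^ k * g *
          (h * ModularGroup.S * ModularGroup.T ^ k)⁻¹ = h * g'' * h⁻¹ by
        rw [hg'', hg']; group, hh, hsign, f00, f11, e00, e11]
      congr 1
      ring_nf

/-- Elements of trace `± 1` with the same trace and lower left entries of the same sign are
conjugate. -/
theorem exists_conj_of_trace {g g' : SL(2, ℤ)} (ht : (g 0 0 + g 1 1) * (g 0 0 + g 1 1) = 1)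
    (htr : g' 0 0 + g' 1 1 = g 0 0 + g 1 1) (hs : (g' 1 0).sign = (g 1 0).sign) :
    ∃ h : SL(2, ℤ), g' = h * g * h⁻¹ := by
  obtain ⟨h₁, e₁⟩ := exists_conj_standard _ g rfl ht
  obtain ⟨h₂, e₂⟩ := exists_conj_standard _ g' rfl (by rw [htr]; exact ht)
  rw [hs, htr, ← e₁] at e₂
  refine ⟨h₂⁻¹ * h₁, ?_⟩
  have e : h₂ * g' * h₂⁻¹ = h₁ * g * h₁⁻¹ := Subtype.ext e₂
  calc g' = h₂⁻¹ * (h₂ * g' * h₂⁻¹) * h₂ := by group
    _ = _ := by rw [e]; group

variable {L ℓ : ℕ} [NeZero L] [NeZero ℓ]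

omit [NeZero L] [NeZero ℓ] in
/-- At a fixed representative the cocycle is conjugate inside `Γ₀(L)`. -/
theorem exists_conj_gamma0 (h3 : ¬ 3 ∣ L) (hℓ : ℓ.Prime) (hℓL : ¬ ℓ ∣ L) (j : Option (ZMod ℓ))
    (γ c : Gamma0 L) (ht : ((γ : SL(2, ℤ)) 0 0 + (γ : SL(2, ℤ)) 1 1) *
      ((γ : SL(2, ℤ)) 0 0 + (γ : SL(2, ℤ)) 1 1) = 1)
    (he : tMat ℓ j * ((γ : SL(2, ℤ)) : Matrix (Fin 2) (Fin 2) ℤ) =
      ((c : SL(2, ℤ)) : Matrix (Fin 2) (Fin 2) ℤ) * tMat ℓ j) :
    ∃ h : Gamma0 L, c = h * γ * h⁻¹ := by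
  obtain ⟨x, y, z, hX, hxz⟩ : ∃ x y z : ℤ, tMat ℓ j = !![x, y; 0, z] ∧ x * z = ℓ := by
    cases j with
    | none => exact ⟨_, _, _, rfl, mul_one _⟩
    | some v => exact ⟨_, _, _, rfl, one_mul _⟩
  rw [hX] at he
  set g : SL(2, ℤ) := (γ : SL(2, ℤ))
  set d : SL(2, ℤ) := (c : SL(2, ℤ))
  have hℓ0 : (ℓ : ℤ) ≠ 0 := Int.natCast_ne_zero.mpr hℓ.ne_zero
  have a00 := congrFun (congrFun he 0) 0
  have a10 := congrFun (congrFun he 1) 0
  have a11 := congrFun (congrFun he 1) 1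
  simp [Matrix.mul_apply, Fin.sum_univ_two] at a00 a10 a11
  have hz : z ≠ 0 := right_ne_zero_of_mul (hxz ▸ hℓ0)
  have hx : x ≠ 0 := left_ne_zero_of_mul (hxz ▸ hℓ0)
  have htr : d 0 0 + d 1 1 = g 0 0 + g 1 1 := by
    refine mul_left_cancel₀ (mul_ne_zero hx hz) ?_
    linear_combination (-z) * a00 - x * a11 + y * a10
  have hs : (d 1 0).sign = (g 1 0).sign := by
    have e : d 1 0 * (x * z) = z * z * g 1 0 := by linear_combination (-z) * a10
    have := congrArg Int.sign e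
    rw [Int.sign_mul, hxz, Int.sign_natCast_of_ne_zero hℓ.ne_zero, mul_one, Int.sign_mul,
      Int.sign_eq_one_of_pos (mul_self_pos.mpr hz), one_mul] at this
    exact this
  obtain ⟨h, hh⟩ := exists_conj_of_trace ht htr hs
  -- `Y = h⁻¹ X` commutes with `g`
  set Y : Matrix (Fin 2) (Fin 2) ℤ := ((h⁻¹ : SL(2, ℤ)) : Matrix (Fin 2) (Fin 2) ℤ) * !![x, y; 0, z]
    with hY
  have hcomm : Y * (g : Matrix (Fin 2) (Fin 2) ℤ) = (g : Matrix (Fin 2) (Fin 2) ℤ) * Y := by
    rw [hY, Matrix.mul_assoc, he, hh, ← Matrix.mul_assoc, ← Matrix.mul_assoc, ← coe_mul, ← coe_mul]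
    congr 2
    group
  have c00 := congrFun (congrFun hcomm 0) 0
  have c10 := congrFun (congrFun hcomm 1) 0
  simp [Matrix.mul_apply, Fin.sum_univ_two] at c00 c10
  have hL10 : (L : ℤ) ∣ g 1 0 :=
    (ZMod.intCast_zmod_eq_zero_iff_dvd _ _).mp (Gamma0_mem.mp γ.2)
  have h3Y : (L : ℤ) ∣ 3 * Y 1 0 := by
    have hd := LevelRaising.det_eq g
    have e : 3 * Y 1 0 =
        g 1 0 * ((Y 1 1 - Y 0 0) * (g 0 0 - g 1 1) - 4 * g 0 1 * Y 1 0) := by
      linear_combination -(g 0 0 - g 1 1) * c10 - Y 1 0 * (4 * hd - ht)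
    rw [e]; exact hL10.mul_right _
  have hY10 : (L : ℤ) ∣ Y 1 0 := by
    have hco : IsCoprime (L : ℤ) 3 :=
      (Int.prime_three.coprime_iff_not_dvd.mpr (by exact_mod_cast h3)).symm
    exact hco.dvd_of_dvd_mul_left h3Y
  have hdetY : Y 0 0 * Y 1 1 - Y 0 1 * Y 1 0 = ℓ := by
    have : Y.det = ℓ := by
      rw [hY, Matrix.det_mul, det_coe, Matrix.det_fin_two_of, one_mul, mul_zero, sub_zero, hxz]
    rwa [Matrix.det_fin_two] at this
  have hh10 : (L : ℤ) ∣ h 1 0 := by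
    have e : ((h : Matrix (Fin 2) (Fin 2) ℤ) * Y) 1 0 = 0 := by
      rw [hY, ← Matrix.mul_assoc, ← coe_mul, mul_inv_cancel, coe_one, Matrix.one_mul]; simp
    rw [Matrix.mul_apply, Fin.sum_univ_two] at e
    have hco : IsCoprime (L : ℤ) ℓ :=
      ((Nat.prime_iff_prime_int.mp hℓ).coprime_iff_not_dvd.mpr (by exact_mod_cast hℓL)).symm
    refine hco.dvd_of_dvd_mul_left ?_
    rw [show (ℓ : ℤ) * h 1 0 = Y 1 0 * (-(h 1 1 * Y 1 1) - h 1 0 * Y 0 1) by
      linear_combination (-(h 1 0)) * hdetY + Y 1 1 * e]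
    exact hY10.mul_right _
  refine ⟨⟨h, Gamma0_mem.mpr ((ZMod.intCast_zmod_eq_zero_iff_dvd _ _).mpr hh10)⟩, Subtype.ext ?_⟩
  exact hh

theorem cube_of_trace (g : SL(2, ℤ)) (ht : (g 0 0 + g 1 1) * (g 0 0 + g 1 1) = 1) :
    g ^ 3 = 1 ∨ g ^ 3 = -1 := by
  have hd := LevelRaising.det_eq g
  set t := g 0 0 + g 1 1 with htdef
  set G : Matrix (Fin 2) (Fin 2) ℤ := g.1 with hG
  have h2 : G * G = t • G - 1 := by
    ext i j
    fin_cases i <;> fin_cases j <;> simp [hG, htdef, Matrix.mul_apply, Fin.sum_univ_two, -zsmul_eq_mul] at hd ⊢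
    · linear_combination -hd
    · ring
    · ring
    · linear_combination -hd
  have h3 : ((g ^ 3 : SL(2, ℤ)) : Matrix (Fin 2) (Fin 2) ℤ) = (-t) • 1 := by
    rw [coe_pow, ← hG, pow_succ, pow_two, h2, sub_mul, smul_mul_assoc, h2, smul_sub, smul_smul,
      one_mul, ht, one_smul, neg_smul]
    abel
  rcases mul_self_eq_one_iff.mp ht with e | e
  · exact Or.inr (Subtype.ext (h3.trans (by rw [e]; simp)))
  · exact Or.inl (Subtype.ext (h3.trans (by rw [e]; simp)))

omit [NeZero L] in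
omit [NeZero ℓ] in
/-- **`T_ℓ` at an element of order three or six.** -/
theorem homT_apply_trace_one (h3 : ¬ 3 ∣ L) (hℓ : ℓ.Prime) (hℓL : ¬ ℓ ∣ L) {A : Type}
    [AddCommGroup A] (hA : ∀ a : A, 3 • a = 0) (φ : Additive (Gamma0 L) →+ A) (γ : Gamma0 L)
    (ht : ((γ : SL(2, ℤ)) 0 0 + (γ : SL(2, ℤ)) 1 1) *
      ((γ : SL(2, ℤ)) 0 0 + (γ : SL(2, ℤ)) 1 1) = 1) :
    homT hℓ hℓL ℤ φ (Additive.ofMul γ) = (1 + ℓ) • φ (Additive.ofMul γ) := by
  classical
  have : NeZero ℓ := ⟨hℓ.ne_zero⟩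
  set S := systemT hℓ hℓL with hS
  -- `γ ^ 3` is central
  have hcube : ((γ ^ 3 : Gamma0 L) : SL(2, ℤ)) = 1 ∨ ((γ ^ 3 : Gamma0 L) : SL(2, ℤ)) = -1 := by
    rw [SubmonoidClass.coe_pow]
    exact cube_of_trace _ ht
  have hsq : ∀ c : Gamma0 L, c * c = 1 → φ (Additive.ofMul c) = 0 := fun c hc => by
    have h2 : φ (Additive.ofMul c) + φ (Additive.ofMul c) = 0 := by
      rw [← map_add, ← ofMul_mul, hc, ofMul_one, map_zero]
    have := hA (φ (Additive.ofMul c))
    rwa [succ_nsmul, two_nsmul, h2, zero_add] at this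
  have hpow : ∀ (n : ℕ) (i), S.perm (γ ^ (3 * n)) i = i ∧
      φ (Additive.ofMul (S.cocycle (γ ^ (3 * n)) i)) = 0 := by
    intro n i
    have hc : ((γ ^ (3 * n) : Gamma0 L) : SL(2, ℤ)) = 1 ∨
        ((γ ^ (3 * n) : Gamma0 L) : SL(2, ℤ)) = -1 := by
      rw [pow_mul, SubmonoidClass.coe_pow]
      rcases hcube with e | e <;> rw [e]
      · exact Or.inl (one_pow n)
      · exact neg_one_pow_eq_or _ n
    obtain ⟨h1, h2⟩ := S.eq_of_spec (γ := γ ^ (3 * n)) (c := γ ^ (3 * n)) (i := i) (j := i) (by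
      rcases hc with e | e <;> rw [e]
      · rw [map_one, one_mul, mul_one]
      · rw [show mapGL ℝ (-1 : SL(2, ℤ)) = -1 by ext a b; simp [Matrix.one_apply]]
        simp)
    exact ⟨h1, by
      rw [h2]; exact hsq _ (Subtype.ext (by
        rw [Subgroup.coe_mul]; rcases hc with e | e <;> rw [e] <;> simp))⟩
  rw [homT, HeckeSystem.op_apply, S.apply_eq_card_nsmul_of_orbits φ γ
      (φ (Additive.ofMul γ)) fun i m _ hm => ?_,
    card_tReps]
  by_cases hi : S.perm γ i = i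
  · obtain ⟨h, hh⟩ := exists_conj_gamma0 h3 hℓ hℓL i γ (S.cocycle γ i) ht (by
      have e := tMat_spec hℓ hℓL γ i
      rwa [hi] at e)
    have hc : φ (Additive.ofMul (S.cocycle γ i)) = φ (Additive.ofMul γ) := by
      simp [hh]
    simp [(S.perm_cocycle_pow γ i m).2 φ, iterate_fixed hi, hc]
  · obtain ⟨n, rfl⟩ : 3 ∣ m := by
      by_contra hd
      have h' := (S.perm_cocycle_pow (A := A) γ i m).1.symm.trans hm
      have h3' := (S.perm_cocycle_pow (A := A) γ i 3).1.symm.trans (hpow 1 i).1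
      refine hi ?_
      have := IsPeriodicPt.gcd (f := S.perm γ) h' h3'
      rwa [show Nat.gcd m 3 = 1 from
        ((Nat.prime_three.coprime_iff_not_dvd).2 hd).symm, IsPeriodicPt, IsFixedPt,
        iterate_one] at this
    rw [(hpow n i).2, mul_comm, mul_nsmul, hA]

end Fermat.Agent.RT.AtPGen

end
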