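import Fermat.Agent.RT.Lift59.AtP.Main
import Fermat.Agent.RT.AtPGen.AuxPrimes
import Fermat.Agent.RT.Lift59.Mazur.Main

/-!
# Level lowering at `p ≠ 3`, semistable at `p` only

Two auxiliary primes kill the elliptic points; `p` leaves that level, then the two primes leave.
-/

set_option autoImplicit false

noncomputable section

open WeierstrassCurve WeierstrassCurve.Affine
open CongruenceSubgroup ModularFormClass
open scoped WeierstrassCurve.Affine

namespace Fermat.Agent.RT.AtPGen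

open Fermat.Agent.Arith Fermat.Agent.EC.Rep Fermat.Agent.RT.AtP Fermat.Agent.CFT.Flat
open Fermat.Agent.RT.MazurQ (nuTwo_eq_zero nuThree_eq_zero)
open Fermat.Agent.RT.Lift59 Fermat.Agent.RT.Lift59.AtP

variable {W : WeierstrassCurve ℤ} {p : ℕ} [Fact p.Prime]

/-- **`p` leaves the level** for `p ≠ 3`. -/
theorem residuallyModular_of_p_mul (hp2 : p ≠ 2) (hΔ : W.Δ ≠ 0)
    (hsemi : (p : ℤ) ∣ W.Δ → ¬ (p : ℤ) ∣ W.c₄) (hirr : W.ModRepIsIrreducible p)
    (hsmall : Lift59.SmallAt W p p) (hp3 : p ≠ 3) {N : ℕ} (hN : N ≠ 0)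
    (hpN : ¬ p ∣ N) (hmod : W.IsResiduallyModularOfLevel p (p * N)) :
    W.IsResiduallyModularOfLevel p N := by
  have hp : p.Prime := Fact.out
  obtain ⟨l, hl, hlS, hlgood, hlp, hl4, hlne⟩ := exists_aux_four hp2 hΔ hirr N.primeFactors
  have hlN : ¬ l ∣ N := fun h => hlS (Nat.mem_primeFactors.mpr ⟨hl, h, hN⟩)
  obtain ⟨r, hr, hrS, hrgood, hrp, hr3, hrne⟩ :=
    exists_aux_three hp2 hp3 hΔ hirr (insert l N.primeFactors)
  simp only [Finset.mem_insert, not_or] at hrS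
  have hrN : ¬ r ∣ l * N := fun h => (hr.dvd_mul.mp h).elim
    (fun h' => hrS.1 ((Nat.prime_dvd_prime_iff_eq hr hl).mp h'))
    (fun h' => hrS.2 (Nat.mem_primeFactors.mpr ⟨hr, h', hN⟩))
  have hlN0 : l * N ≠ 0 := mul_ne_zero hl.ne_zero hN
  have hpM : ¬ p ∣ r * (l * N) := fun h => (hp.dvd_mul.mp h).elim
    (fun h' => hrp ((Nat.prime_dvd_prime_iff_eq hp hr).mp h').symm)
    fun h' => (hp.dvd_mul.mp h').elim
      (fun h'' => hlp ((Nat.prime_dvd_prime_iff_eq hp hl).mp h'').symm) hpN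
  have h1 := residuallyModular_of_dvd_p_mul hp2 hΔ hsemi hirr hsmall
    (mul_ne_zero hr.ne_zero hlN0) hpM
    ⟨nuTwo_eq_zero hl hl4 ((dvd_mul_right l N).mul_left r),
      nuThree_eq_zero hr hr3 (dvd_mul_right r _)⟩
    (mul_dvd_mul_left p ((dvd_mul_left N l).mul_left r)) hmod
  exact Lift59.MazurQ.residuallyModular_of_mul hΔ hl hN hlN hlgood hlp hlne
    (Lift59.MazurQ.residuallyModular_of_mul hΔ hr hlN0 hrN hrgood hrp hrne h1)

end Fermat.Agent.RT.AtPGen

end
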