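import Fermat.Agent.RT.AtPGen.Compat
import Fermat.Agent.RT.AtPGen.Main

/-!
# Frobenius at `q` on inertia-fixed eigen classes of level `q M`, `p = 3`, `M` odd

The auxiliary level `2 M` has no elliptic points; the reductions are eigen there for `z(q)` and
`z(q²)`, so they glue to level `M`, elliptic points or not.
-/

set_option autoImplicit false
set_option linter.unusedSectionVars false

noncomputable section

namespace Fermat.Agent.RT.AtPGen

open AlgebraicCurve ModularCurve Fermat.Agent.Semistable Fermat.Agent.Arith CongruenceSubgroup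
open Fermat.Agent.RT.Mazur Fermat.Agent.RT.MazurP Fermat.Agent.NewformLocal.Toric
open Fermat.Agent.RT.MazurQ Fermat.Agent.ModFun Fermat.Agent.JacTorsion
open Fermat.Agent.Periods (homT)
open scoped MatrixGroups

/-- A function that becomes a power at a higher level has monodromy zero there. -/
theorem torsionEquiv_eq_zero_of_inclF {N N' m : ℕ} [NeZero N] [NeZero N'] [NeZero m] (h : N ∣ N')
    (f : divGrp QBar (FB N) m) {g : FB N'} (hg : g ≠ 0)
    (e : inclF h ((f : (FB N)ˣ) : FB N) = g ^ m) (γ : Gamma0 N)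
    (hγ : (γ : SL(2, ℤ)) ∈ Gamma0 N') :
    (torsionEquiv N m (toTorsion (Additive.ofMul f))).1 (Additive.ofMul γ) = 0 := by
  obtain ⟨H₀, b, C, -, -, -, -, hroot⟩ := JacTorsion.exists_root (Units.ne_zero
    ((divGrpToC N m f : (FC N)ˣ))) (divGrpToC N m f).2
  set r := algebraMap HolH MerH H₀ / e1 N (toFC N b)
  rw [coe_divGrpToC] at hroot
  set u := e1 N' (toC N' g) with hu
  have ei := GaloisReps.e1_eq_of_coe_eq (M := N') h (toC N ((f : (FB N)ˣ) : FB N))
    (toC N' (inclF h ((f : (FB N)ˣ) : FB N))) (by rw [coe_toC, coe_toC, coe_inclF])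
  have hpow : r ^ m = u ^ m := by rw [hroot, ← ei, e, map_pow, map_pow, hu]
  have hu0 : u ≠ 0 := (map_ne_zero _).mpr ((map_ne_zero _).mpr hg)
  obtain ⟨ζ, -, er⟩ := exists_const_mul (NeZero.ne m) hu0 hpow
  have hr0 : r ≠ 0 := root_ne_zero ((map_ne_zero (toC N)).mpr (Units.ne_zero _)) hroot
  refine eq_of_zetaPow_mul hr0 ?_
  have h1 : actMer (γ : SL(2, ℤ)) r = r := by
    rw [er, map_mul, AlgEquiv.commutes, hu, JacTorsion.actMer_e1 hγ]
  have h2 := torsionEquiv_spec N m f r hroot γ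
  rw [h1] at h2
  rw [zetaPow_zero, map_one, one_mul]
  exact h2.symm

variable {q M : ℕ} [hq : Fact q.Prime] [NeZero M]

/-- **Frobenius at `q` without eigen homomorphisms of level `M`.** -/
theorem frobNeg_of_odd (hqM : ¬ q ∣ M) (hq2 : q ≠ 2) (hqp : 3 ≠ q) (hM : Odd M) {r : ℕ}
    (hr : r.Prime) (hr4 : r % 4 = 3) (hrM : r ∣ M) {G : ℕ → Prop} {a : ℕ → ℕ}
    (hG : ∀ l, l.Prime → G l → ¬ l ∣ q * (M * 2))
    (hex : ∃ l, l.Prime ∧ G l ∧ ((l + 1 : ℕ) : ZMod 3) ≠ (a l : ZMod 3))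
    (hnone : ∀ ψ : Additive (Gamma0 M) →+ ZMod 3,
      (∀ l (hl : l.Prime) (hlM : ¬ l ∣ M), G l → homT hl hlM ℤ ψ = a l • ψ) → ψ = 0) :
    FrobNeg hqM 3 G a := by
  classical
  intro A hA σ hσ x hx hfix
  have : Fact (Nat.Prime 3) := ⟨Nat.prime_three⟩
  have hq' : q.Prime := Fact.out
  have h2 : ¬ q ∣ 2 := fun h => hq2 ((Nat.prime_dvd_prime_iff_eq hq' Nat.prime_two).mp h)
  have hqM' : ¬ q ∣ M * 2 := fun h => (hq'.dvd_mul.mp h).elim hqM h2
  have hG0 : ∀ l, l.Prime → G l → ¬ l ∣ q * M := fun l hl hGl h =>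
    hG l hl hGl (h.trans (mul_dvd_mul_left q (dvd_mul_right M 2)))
  have hodd : ∀ l, l.Prime → G l → l ≠ 2 := fun l hl hGl h =>
    hG l hl hGl (h ▸ (dvd_mul_left 2 M).mul_left q)
  have : CharP (Res A) q := Arith.residueField_charP hA hq'
  have := Arith.residueField_isAlgClosed A
  have hMA := natCast_res_ne_zero hA hq' hqM
  have hMA' := natCast_res_ne_zero hA hq' hqM'
  have : FF.IsFunctionField (Res A) (KM A M) := isFunctionField_KM A hMA
  have : FF.IsFunctionField (Res A) (KM A (M * 2)) := isFunctionField_KM A hMA'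
  have h : Setup A (M * 2) q := setup hA hq' hqM'
  obtain ⟨V⟩ := RT.MazurP.exists_vUnit (p := q) (M := M * 2) hA h.hM h.hqM
  have hV : V.Simple := V.simple_of_goodM hA h.hM h.good
    (genus_identity_of_nu hqM'
      ⟨nuTwo_eq_zero hr hr4 (hrM.mul_right 2), nuThree_eq_zero Nat.prime_two (by norm_num)
        (dvd_mul_left 2 M)⟩
      ⟨nuTwo_eq_zero hr hr4 ((hrM.mul_right 2).mul_left q),
        nuThree_eq_zero Nat.prime_two (by norm_num) ((dvd_mul_left 2 M).mul_left q)⟩)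
  set C := unramField (p := q) hA
  -- the Kummer function and its two pullbacks
  set xt : Pic0.torsion QBar (FB (q * M)) 3 :=
    ⟨x, Pic0.mem_torsion.mpr (by rw [natCast_zsmul]; exact hx.1)⟩
  have hxe : MazurP.IsEigen (q * M) G (fun l => (a l : ℤ)) x :=
    fun l hl hGl => by rw [hx.2 l hl hGl, natCast_zsmul]
  obtain ⟨f, hfx, -, hfI⟩ := exists_rational_kummer A xt hfix
  have hfx' : (toTorsion (Additive.ofMul f) : JZero (q * M)) = x := by rw [hfx]
  have hFfix : ∀ τ ∈ A.inertiaSubgroupIn ℚ,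
      galF (q * M) τ ((f : (FB (q * M))ˣ) : FB (q * M)) = ((f : (FB (q * M))ˣ) : FB (q * M)) :=
    fun τ hτ => galF_eq_self (hfI τ hτ)
  set ι := inclF (N := q * M) (N' := q * (M * 2)) (mul_dvd_mul_left q (dvd_mul_right M 2)) with hι
  have hint := FF.isIntegralAlong ι
  set D' := Divisor.pullbackAlong ι hint (JacTorsion.divQuot f) with hD'
  have hordι : ∀ w, w.ord (ι ((f : (FB (q * M))ˣ) : FB (q * M))) = ((3 : ℕ) : ℤ) * D' w :=
    fun w => by
      rw [Place.ord_restrictAlong ι hint, ← FF.div_apply, ← JacTorsion.smul_divQuot,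
        Finsupp.smul_apply, smul_eq_mul, hD', Divisor.pullbackAlong_apply]
      ring
  obtain ⟨K, hK⟩ := RT.MazurP.Kum.exists_of (hpM := h.hqM) (C := C)
    (by norm_num : 0 < 3) hA h.hM ((_root_.map_ne_zero ι).mpr (Units.ne_zero _))
    (fun v => ⟨_, hordι v⟩) (fun τ hτ => by rw [galF_inclF, hFfix τ (C.le_inertia hτ)])
  obtain ⟨K₂, hK₂⟩ := RT.MazurP.Kum.exists_of (hpM := h.hqM) (C := C)
    (by norm_num : 0 < 3) hA h.hM ((_root_.map_ne_zero (betaQ q M)).mpr (Units.ne_zero _))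
    (fun v => dvd_ord_algHom (betaQ q M) f v)
    (fun τ hτ => by rw [galF_betaQ, hFfix τ (C.le_inertia hτ)])
  have hser : ∀ s, iota2 (M * 2) q h.hqM s K.f =
      iota2 M q hqM s ((f : (FB (q * M))ˣ) : FB (q * M)) := fun s => by
    rw [hK, hι]
    exact iota2_inclF (dvd_mul_right M 2) hqM h.hqM _ s
  have hser₂ : ∀ s, iota2 (M * 2) q h.hqM s K₂.f =
      qExpand QBar 2 (iota2 M q hqM s ((f : (FB (q * M))ˣ) : FB (q * M))) := fun s => by
    rw [hK₂]
    exact iota2_betaQ hqM h.hqM _ s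
  -- the second pullback is the first with `q ↦ q²`
  have hexp : ∀ s, ∃ hm : algebraMap QBar LSer (C.π ^ (-K.v s)) * iota2 (M * 2) q h.hqM s K₂.f ∈
      locS A, redL A ⟨_, hm⟩ = qExpand (Res A) 2 (K.fb s : LaurentSeries (Res A)) := fun s => by
    obtain ⟨hm, hr⟩ := K.spec s
    have e : algebraMap QBar LSer (C.π ^ (-K.v s)) * iota2 (M * 2) q h.hqM s K₂.f =
        qExpand QBar 2 (algebraMap QBar LSer (C.π ^ (-K.v s)) *
          iota2 (M * 2) q h.hqM s K.f) := by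
      rw [hser, hser₂, map_mul, MazurP.algebraMap_eq_C, qExpand_C]
    exact ⟨by rw [e]; exact qExpand_mem_locS 2 hm,
      ((redL_congr _ (qExpand_mem_locS 2 hm) e).trans (redL_qExpand 2 hm)).trans
        (congrArg _ hr)⟩
  have hv : ∀ s, K₂.v s = K.v s := fun s => by
    rw [← K₂.gord_eq]
    obtain ⟨hm, hr⟩ := hexp s
    exact CoefField.gord_eq ⟨hm, by
      rw [hr]
      exact fun h0 => K.fb_ne s (Subtype.ext ((qExpand_injective 2)
        (h0.trans (map_zero (qExpand (Res A) 2)).symm)))⟩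
  have hfb : ∀ s, (K₂.fb s : LaurentSeries (Res A)) =
      qExpand (Res A) 2 (K.fb s : LaurentSeries (Res A)) := fun s => by
    obtain ⟨hm, hr⟩ := hexp s
    obtain ⟨hm₂, hr₂⟩ := K₂.spec s
    rw [← hr, ← hr₂]
    exact redL_congr _ _ (by rw [hv])
  -- the orders along the components
  have hδ : ((3 : ℕ) : ℤ) ∣ K.δ := by
    obtain ⟨l, hl, hGl, hla⟩ := hex
    have : NeZero l := ⟨hl.ne_zero⟩
    obtain ⟨g, hg, e⟩ := exists_heckeNorm_eq l hl f _ (by rw [hfx']; exact hxe l hl hGl)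
    rw [zpow_natCast] at e
    have h1 := dvd_gord_sub hA hqp hqM C (Units.ne_zero _) hg
      (fun τ hτ => hFfix τ (C.le_inertia hτ)) hl (hG0 l hl hGl) e hla
    rwa [← hser, ← hser, K.gord_eq, K.gord_eq] at h1
  have hδ₂ : ((3 : ℕ) : ℤ) ∣ K₂.δ := by
    unfold RT.MazurP.Kum.δ at hδ ⊢
    rwa [hv, hv]
  have hpow : ∀ s, ∃ (c : Res A) (k : KM A (M * 2)), c ≠ 0 ∧ k ≠ 0 ∧
      K.fb s = algebraMap (Res A) (KM A (M * 2)) c * k ^ 3 := by
    intro s
    have hKr : IsRed A (iota2 M q hqM s ((f : (FB (q * M))ˣ) : FB (q * M)))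
        (K.fb s : LaurentSeries (Res A)) := by rw [← hser]; exact K.isRed_fb s
    set z : KM A M := ⟨_, isRed_mem_KM q M hqM hA hMA hKr⟩ with hz
    have hz2 : K₂.fb s = expTwo z := Subtype.ext (by rw [hfb, coe_expTwo])
    have heig : HeckeEig A (M * 2) 3 G a (K₂.fb s) := by
      rw [hz2]
      exact heckeEig_expTwo G a hodd
        (heckeEig_of_isRed hA hMA hqM G a hG0 (f := f) (by rw [hfx']; exact hxe) s hKr)
    obtain ⟨k, hk, e⟩ := exists_eq_pow_three hA hM hqp hq2 hqM hG hnone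
      ⟨Units.mk0 (K.fb s) (K.fb_ne s), fun P => dvd_ord_fb hA h.hM V hV (unramField_e hA) K hδ s P⟩
      ⟨Units.mk0 (K₂.fb s) (K₂.fb_ne s),
        fun P => dvd_ord_fb hA h.hM V hV (unramField_e hA) K₂ hδ₂ s P⟩ (hfb s) heig
    exact ⟨1, k, one_ne_zero, hk, by rw [map_one, one_mul]; exact e⟩
  have hord' : ∀ v, v.ord K.f = ((3 : ℕ) : ℤ) * D' v := fun v => by rw [hK]; exact hordι v
  obtain ⟨P, b, hP, hKum⟩ := exists_hasKummer_of_pow h V hV K hδ hpow hord'
  obtain ⟨c, g, hc, hg, hce⟩ :=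
    exists_const_mul_pow_of_hasKummer h hqp hσ K.f_ne hord' hP hKum
  rw [hK, hι, galF_inclF, wEquiv_inclF (dvd_mul_right M 2) hqM h.hqM, ← map_pow, ← map_mul] at hce
  obtain ⟨c', rfl⟩ := IsAlgClosed.exists_pow_nat_eq c (by norm_num : 0 < 3)
  have hc' : c' ≠ 0 := fun h0 => hc (by rw [h0, zero_pow (by norm_num)])
  -- back to classes
  obtain ⟨f₁, hf₁, hf₁x⟩ := exists_smul_toTorsion
    (arithmeticGalois (modularFunctionFieldFull (q * M)) σ) f
  obtain ⟨f₂, hf₂, hf₂x⟩ := exists_smul_toTorsion (wSA hqM) f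
  rw [galois_smul_eq_galF] at hf₁
  rw [wSA_smul] at hf₂
  have hzero : toTorsion (Additive.ofMul (f₁ * f₂ ^ q)) = 0 := by
    refine (torsionEquiv (q * M) 3).injective (Subtype.ext ?_)
    rw [map_zero]
    refine eq_zero_of_res ((hq'.odd_of_ne_two hq2).mul hM) zmod_three_two _ fun γ hγ => ?_
    refine torsionEquiv_eq_zero_of_inclF (mul_dvd_mul_left q (dvd_mul_right M 2)) _
      (g := algebraMap QBar (FB (q * (M * 2))) c' * g)
      (mul_ne_zero ((_root_.map_ne_zero _).mpr hc') hg) ?_ γ (by rwa [← mul_assoc])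
    rw [Subgroup.coe_mul, Units.val_mul, SubgroupClass.coe_pow, Units.val_pow_eq_pow_val, hf₁,
      hf₂, hce, mul_pow, map_pow]
  rw [ofMul_mul, ofMul_pow, map_add, map_nsmul] at hzero
  have h1 := congrArg Subtype.val hzero
  rw [AddSubgroup.coe_add, AddSubgroup.coe_nsmul, ZeroMemClass.coe_zero] at h1
  have h2' := eq_neg_of_add_eq_zero_left h1
  rw [hf₁x, hf₂x, hfx'] at h2'
  exact h2'

end Fermat.Agent.RT.AtPGen

end
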