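import Fermat.Agent.RT.MazurQ.Rigid

/-!
# The degeneracy `q ↦ q²` on the levels `q M` and on the special fibre

It commutes with `w`, Galois, reduction and the Hecke products at odd primes.
-/

set_option autoImplicit false
set_option linter.unusedSectionVars false

noncomputable section

namespace Fermat.Agent.RT.AtPGen

open AlgebraicCurve ModularCurve Fermat.Agent.Semistable Fermat.Agent.Arith
open Fermat.Agent.RT.Mazur Fermat.Agent.RT.MazurP Fermat.Agent.NewformLocal.Toric
open Fermat.Agent.RT.MazurQ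

variable {q M : ℕ} [hq : Fact q.Prime] [NeZero M]

theorem qMul_assoc : q * M * 2 ∣ q * (M * 2) := by rw [mul_assoc]

/-- `f(q) ↦ f(q²)`. -/
def betaQ (q M : ℕ) [Fact q.Prime] [NeZero M] : FB (q * M) →ₐ[QBar] FB (q * (M * 2)) :=
  (inclF (qMul_assoc (q := q) (M := M))).comp (heckeBetaBar QBar (q * M) 2)

theorem coe_betaQ (x : FB (q * M)) :
    (betaQ q M x : LSer) = qExpand QBar 2 (x : LSer) := by
  show ((inclF (qMul_assoc (q := q) (M := M)) (heckeBetaBar QBar (q * M) 2 x) : FB (q * (M * 2))) : LSer) = _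
  rw [coe_inclF, coe_heckeBetaBar]

theorem galF_betaQ (σ : GQ) (x : FB (q * M)) :
    galF (q * (M * 2)) σ (betaQ q M x) = betaQ q M (galF (q * M) σ x) :=
  Subtype.ext (by
    rw [coe_arithmeticRingAut, coe_betaQ, coe_betaQ, coe_arithmeticRingAut, coeffMap_qExpand])

theorem wEquiv_betaQ (hqM : ¬ q ∣ M) (hqM' : ¬ q ∣ M * 2) (x : FB (q * M)) :
    wEquiv q (M * 2) hqM' (betaQ q M x) = betaQ q M (wEquiv q M hqM x) := by
  have h : ((wEquiv q (M * 2) hqM').toAlgHom.comp (betaQ q M)).toRingHom =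
      ((betaQ q M).comp (wEquiv q M hqM).toAlgHom).toRingHom := by
    refine fb_ringHom_ext (fun a => ?_) fun d => ?_
    · show wEquiv q (M * 2) hqM' (betaQ q M (algebraMap QBar _ a)) =
        betaQ q M (wEquiv q M hqM (algebraMap QBar _ a))
      rw [AlgHom.commutes, AlgEquiv.commutes, AlgEquiv.commutes, AlgHom.commutes]
    · refine Subtype.ext ?_
      show (wEquiv q (M * 2) hqM' (betaQ q M (genF (q * M) d)) : LSer) =
        (betaQ q M (wEquiv q M hqM (genF (q * M) d)) : LSer)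
      rw [coe_betaQ]
      obtain ⟨d, hd⟩ := d
      rcases dvs_cases q M hq.out hd with h1 | ⟨e, he, rfl⟩
      · have : NeZero d := ⟨fun h0 => NeZero.ne M (Nat.eq_zero_of_zero_dvd (h0 ▸ h1))⟩
        have h2 : 2 * d ∣ M * 2 := by rw [mul_comm M 2]; exact mul_dvd_mul_left 2 h1
        have e1 : betaQ q M (genF (q * M) ⟨d, hd⟩) =
            genF (q * (M * 2)) ⟨2 * d, dvd_mul_of_dvd_right h2 q⟩ :=
          Subtype.ext (by rw [coe_betaQ, coe_genF, coe_genF, gen, gen, qExpand_qExpand])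
        rw [e1, wEquiv_gen_of_dvd q (M * 2) hqM' h2, wEquiv_gen_of_dvd q M hqM h1, qExpand_qExpand]
        exact qExpand_congr (mul_left_comm q 2 d) _
      · have : NeZero e := ⟨fun h0 => NeZero.ne M (Nat.eq_zero_of_zero_dvd (h0 ▸ he))⟩
        have h2 : 2 * e ∣ M * 2 := by rw [mul_comm M 2]; exact mul_dvd_mul_left 2 he
        have e1 : betaQ q M (genF (q * M) ⟨q * e, hd⟩) =
            genF (q * (M * 2)) ⟨q * (2 * e), mul_dvd_mul_left q h2⟩ :=
          Subtype.ext (by
            rw [coe_betaQ, coe_genF, coe_genF, gen, gen, qExpand_qExpand]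
            exact qExpand_congr (mul_left_comm 2 q e) _)
        rw [e1, wEquiv_gen_mul q (M * 2) hqM' h2, wEquiv_gen_mul q M hqM he, qExpand_qExpand]
  exact DFunLike.congr_fun h x

theorem iota2_betaQ (hqM : ¬ q ∣ M) (hqM' : ¬ q ∣ M * 2) (x : FB (q * M)) (s : Fin 2) :
    iota2 (M * 2) q hqM' s (betaQ q M x) = qExpand QBar 2 (iota2 M q hqM s x) := by
  fin_cases s
  · show iota2 (M * 2) q hqM' 0 _ = qExpand QBar 2 (iota2 M q hqM 0 x)
    rw [iota2_zero, iota2_zero, coe_betaQ]
  · show iota2 (M * 2) q hqM' 1 _ = qExpand QBar 2 (iota2 M q hqM 1 x)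
    rw [iota2_one, iota2_one, wEquiv_betaQ hqM hqM', coe_betaQ]

variable {A : ValuationSubring QBar}

theorem isRed_qExpand {x : LSer} {z : LaurentSeries (Res A)} (h : IsRed A x z) (n : ℕ) [NeZero n] :
    IsRed A (qExpand QBar n x) (qExpand (Res A) n z) := by
  obtain ⟨hz, c, hc, hcx, rfl⟩ := h
  have e : algebraMap QBar LSer c * qExpand QBar n x =
      qExpand QBar n (algebraMap QBar LSer c * x) := by
    rw [map_mul, MazurP.algebraMap_eq_C, qExpand_C]
  exact ⟨(map_ne_zero _).mpr hz, c, hc, by rw [e]; exact qExpand_mem_locS n hcx,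
    (redL_congr _ (qExpand_mem_locS n hcx) e).trans (redL_qExpand n hcx)⟩

theorem qExpand_mem_KM {z : LaurentSeries (Res A)} (hz : z ∈ KM A M) :
    qExpand (Res A) 2 z ∈ KM A (M * 2) := by
  induction hz using IntermediateField.adjoin_induction with
  | mem y hy =>
    obtain ⟨d, hd0, hd, rfl⟩ := hy
    have : NeZero d := hd0
    rw [qExpand_qExpand]
    exact jqModCd_mem_full (Res A) (M * 2) (by rw [mul_comm M 2]; exact mul_dvd_mul_left 2 hd)
  | algebraMap r =>
    rw [MazurP.algebraMap_eq_C, qExpand_C, ← MazurP.algebraMap_eq_C]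
    exact (KM A (M * 2)).algebraMap_mem r
  | add y w _ _ hy hw => rw [map_add]; exact add_mem hy hw
  | inv y _ hy => rw [map_inv₀]; exact inv_mem hy
  | mul y w _ _ hy hw => rw [map_mul]; exact mul_mem hy hw

/-- `z(q) ↦ z(q²)` on the special fibre. -/
def expTwo (z : KM A M) : KM A (M * 2) :=
  ⟨qExpand (Res A) 2 (z : LaurentSeries (Res A)), qExpand_mem_KM z.2⟩

theorem coe_expTwo (z : KM A M) :
    (expTwo z : LaurentSeries (Res A)) = qExpand (Res A) 2 (z : LaurentSeries (Res A)) := rfl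

omit [NeZero M] in
/-- A twist of `x(qⁿ)`. -/
theorem twist_qExpandPow {K : Type*} [Field K] (u : Kˣ) (n : ℕ) [NeZero n]
    (x : LaurentSeries K) :
    ModFun.twist u (qExpand K n x) = qExpand K n (ModFun.twist (u ^ n) x) := by
  ext k
  rw [ModFun.coeff_twist]
  by_cases hk : (n : ℤ) ∣ k
  · obtain ⟨m, rfl⟩ := hk
    rw [qExpand_coeff_mul, qExpand_coeff_mul, ModFun.coeff_twist, zpow_mul, zpow_natCast]
  · rw [qExpand_coeff_of_not_dvd n _ hk, qExpand_coeff_of_not_dvd n _ hk, mul_zero]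

omit [NeZero M] in
theorem heckeProd_qExpand {K : Type*} [Field K] (l n : ℕ) [NeZero l] [NeZero n] (η : Kˣ)
    (z : LaurentSeries K) :
    heckeProd l η (qExpand K n z) = qExpand K n (heckeProd l (η ^ n) z) := by
  simp only [heckeProd_apply, map_mul, map_prod, qExpand_qExpand, twist_qExpandPow, ← pow_mul,
    mul_comm n]
  congr 1
  exact qExpand_congr (by ring) z

/-- `q ↦ q²` keeps Hecke eigen reductions. -/
theorem heckeEig_expTwo {p : ℕ} (G : ℕ → Prop) (a : ℕ → ℕ)
    (hodd : ∀ l, l.Prime → G l → l ≠ 2) {z : KM A M} (h : HeckeEig A M p G a z) :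
    HeckeEig A (M * 2) p G a (expTwo z) := by
  intro l _ hl hGl
  obtain ⟨c, k, hc, hk, him⟩ := h l hl hGl
  refine ⟨c, expTwo k, hc, fun h0 => hk (Subtype.ext ((qExpand_injective 2
    ((congrArg Subtype.val h0).trans (map_zero (qExpand (Res A) 2)).symm)))), fun η hη => ?_⟩
  have e : ((algebraMap (Res A) (KM A (M * 2)) c * expTwo k ^ p * expTwo z ^ a l : KM A (M * 2)) :
      LaurentSeries (Res A)) = qExpand (Res A) 2 ((algebraMap (Res A) (KM A M) c * k ^ p * z ^ a l :
        KM A M) : LaurentSeries (Res A)) := by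
    push_cast
    rw [coe_expTwo, coe_expTwo, map_mul, map_mul, map_pow, map_pow,
      MazurP.algebraMap_eq_C, qExpand_C]
  have hη' : IsPrimitiveRoot (η ^ 2) l := hη.pow_of_coprime 2
    ((Nat.coprime_primes Nat.prime_two hl).mpr (hodd l hl hGl).symm)
  rw [e, qExpand_qExpand, coe_expTwo, heckeProd_qExpand, ← him _ hη', qExpand_qExpand]
  exact qExpand_congr (mul_comm l 2) _

end Fermat.Agent.RT.AtPGen

end
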