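import Fermat.Agent.RT.AtPGen.FrobThree
import Fermat.Agent.RT.AtPGen.EigenClass

/-!
# The prime three leaves every level

An auxiliary prime `q ≡ 11 (mod 12)` gives a level without elliptic points, and the principle of
Mazur at `q` removes it again.
-/

set_option autoImplicit false

noncomputable section

open WeierstrassCurve WeierstrassCurve.Affine
open CongruenceSubgroup ModularFormClass
open scoped WeierstrassCurve.Affine

namespace Fermat.Agent.RT.AtPGen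

open Fermat.Agent.Arith Fermat.Agent.EC.Rep Fermat.Agent.RT.AtP Fermat.Agent.RT.MazurQ
open Fermat.Agent.RT.Lift59.AtP (residuallyModular_of_dvd_p_mul)
open Fermat.Agent.RT.Lift59.MazurQ (residuallyModular_of_mul)
open Fermat.Agent.Periods (homT)

variable {W : WeierstrassCurve ℤ} [Fact (Nat.Prime 3)]

/-- An auxiliary prime leaves an odd level. -/
theorem residuallyModular_of_aux_mul (hΔ : W.Δ ≠ 0)
    (hirr : W.ModRepIsIrreducible 3) {M q r : ℕ} (hM : Odd M) (h3M : ¬ 3 ∣ M) (hr : r.Prime)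
    (hr4 : r % 4 = 3) (hrM : r ∣ M) (hq : q.Prime) (hq2 : q ≠ 2) (hq3 : q % 3 = 2)
    (hqM : ¬ q ∣ M) (hgood : W.IsGoodPrimeFor q)
    (hmod : W.IsResiduallyModularOfLevel 3 (q * M)) : W.IsResiduallyModularOfLevel 3 M := by
  classical
  have := Fact.mk hq
  have : NeZero M := ⟨hM.pos.ne'⟩
  have : NeZero (q * M) := ⟨mul_ne_zero hq.ne_zero hM.pos.ne'⟩
  have hp : Nat.Prime 3 := Nat.prime_three
  have hqp : 3 ≠ q := fun h => by omega
  set S : Finset ℕ := insert 3 (insert 2 ((q * M).primeFactors ∪ W.Δ.natAbs.primeFactors)) with hS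
  have hSout : ∀ l : ℕ, l.Prime → l ∉ S →
      l ≠ 3 ∧ l ≠ 2 ∧ ¬ l ∣ q * M ∧ W.IsGoodPrimeFor l := by
    intro l hl h
    simp only [hS, Finset.mem_insert, Finset.mem_union, not_or] at h
    exact ⟨h.1, h.2.1, fun hd => h.2.2.1 (Nat.mem_primeFactors.mpr ⟨hl, hd, NeZero.ne _⟩),
      fun hd => h.2.2.2 (Nat.mem_primeFactors.mpr
        ⟨hl, Int.natCast_dvd.mp hd, Int.natAbs_ne_zero.mpr hΔ⟩)⟩
  set G : ℕ → Prop := fun l => l ∉ S with hG
  set a : ℕ → ℕ := fun l => (W.apOfModel l : ZMod 3).val with ha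
  have hacast : ∀ l, (a l : ZMod 3) = (W.apOfModel l : ZMod 3) := fun l => by
    rw [ha]; exact ZMod.natCast_zmod_val _
  refine Lift59.residuallyModular_of_congr hΔ (S := S) (G := G) (fun _ h => h) hacast ?_
  by_contra hcon
  obtain ⟨f, 𝔪, hf, h𝔪, hp𝔪, hcong⟩ := hmod
  have := h𝔪.isPrime
  obtain ⟨x₀, hx₀, hpx₀, hx₀e⟩ := exists_eigenclass hf 𝔪 hp𝔪 G a fun l hl hlS => by
    obtain ⟨hl3, -, hlN, hlgood⟩ := hSout l hl hlS
    obtain ⟨c, hc, hcm⟩ := hcong l hl hlgood hlN hl3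
    exact ⟨c, hc, AtP.sub_intCast_mem hp𝔪 (by exact_mod_cast hacast l) hcm⟩
  have hGN : ∀ l, l.Prime → G l → ¬ l ∣ q * M * 3 := fun l hl hlS h =>
    (hl.dvd_mul.mp h).elim (hSout l hl hlS).2.2.1
      fun h' => (hSout l hl hlS).1 ((Nat.prime_dvd_prime_iff_eq hl hp).mp h')
  have hG2 : ∀ l, l.Prime → G l → ¬ l ∣ q * (M * 2) := fun l hl hlS h => by
    rw [← mul_assoc] at h
    exact (hl.dvd_mul.mp h).elim (hSout l hl hlS).2.2.1
      fun h' => (hSout l hl hlS).2.1 ((Nat.prime_dvd_prime_iff_eq hl Nat.prime_two).mp h')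
  obtain ⟨l₀, hl₀, hl₀S, -, -, hne⟩ := exists_apOfModel_ne (p := 3) (by norm_num) hirr hΔ S
  have hnone : ∀ ψ : Additive (Gamma0 M) →+ ZMod 3,
      (∀ l (hl : l.Prime) (hlM : ¬ l ∣ M), G l → homT hl hlM ℤ ψ = a l • ψ) → ψ = 0 := by
    intro ψ hψe
    by_contra hψ
    obtain ⟨x, hx, hpx, hxe⟩ := exists_eigenclass_of_eigen_hom (L := M) (p := 3) (by norm_num) hΔ
      hirr (fun _ => h3M) hψ S (fun l hl hlM hlS => by
        rw [hψe l hl hlM hlS]
        refine AddMonoidHom.ext fun z => ?_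
        show a l • ψ z = W.apOfModel l • ψ z
        rw [nsmul_eq_mul, zsmul_eq_mul, hacast])
      (G := G) (a := a)
      (fun l hl hlS => ⟨hlS, fun h => (hSout l hl hlS).2.2.1 (h.trans (dvd_mul_left M q))⟩)
      (fun l _ _ => hacast l)
    exact hcon (hasCong_of_eigenclass hx hpx hxe)
  obtain ⟨hq1, -⟩ := scalar_of_frobNeg hqM hqp hGN S (fun l _ h => h)
    (Lift59.AtP.matP W 3 hΔ) (Lift59.AtP.matP_finiteLevel hΔ)
    (Lift59.AtP.matP_span hΔ (by norm_num) hirr)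
    (fun l hl hlS A hA σ hσ => by
      obtain ⟨h1, h2⟩ :=
        Lift59.AtP.matP_frobenius hΔ hl (hSout l hl hlS).2.2.2 (hSout l hl hlS).1 hA hσ
      exact ⟨by rw [h1, hacast], h2⟩)
    (Lift59.AtP.matP_det hΔ)
    (fun A hA τ hτ => by
      rw [Lift59.AtP.matP_apply,
        isUnramifiedAt_residualRep (hΔ := hΔ) hq hgood (Ne.symm hqp) A hA τ hτ, map_one])
    ⟨hpx₀, hx₀e⟩ hx₀
    (frobNeg_of_odd hqM hq2 hqp hM hr hr4 hrM hG2
      ⟨l₀, hl₀, hl₀S, fun h => hne (by rw [← hacast, ← h]; push_cast; ring)⟩ hnone)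
  have h2 : ((q : ℕ) : ZMod 3) = ((2 : ℕ) : ZMod 3) := by
    rw [← ZMod.natCast_mod q 3, hq3]
  have h' := congrArg ZMod.val (h2.symm.trans hq1)
  rw [ZMod.val_natCast, ZMod.val_one] at h'
  omega

/-- **Three leaves every level.** -/
theorem residuallyModular_three (hΔ : W.Δ ≠ 0)
    (hsemi : (3 : ℤ) ∣ W.Δ → ¬ (3 : ℤ) ∣ W.c₄) (hirr : W.ModRepIsIrreducible 3)
    (hsmall : Lift59.SmallAt W 3 3) {N : ℕ} (hN : N ≠ 0) (h3N : ¬ 3 ∣ N)
    (hmod : W.IsResiduallyModularOfLevel 3 (3 * N)) : W.IsResiduallyModularOfLevel 3 N := by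
  classical
  have hp2 : 3 ≠ 2 := by norm_num
  obtain ⟨r, hr, hrS, hrgood, hr3, hr4, hrne⟩ := exists_aux_four hp2 hΔ hirr N.primeFactors
  have hrN : ¬ r ∣ N := fun h => hrS (Nat.mem_primeFactors.mpr ⟨hr, h, hN⟩)
  have hrN0 : r * N ≠ 0 := mul_ne_zero hr.ne_zero hN
  have h3rN : ¬ 3 ∣ r * N := fun h => (Nat.prime_three.dvd_mul.mp h).elim
    (fun h' => hr3 ((Nat.prime_dvd_prime_iff_eq Nat.prime_three hr).mp h').symm) h3N
  refine residuallyModular_of_mul hΔ hr hN hrN hrgood hr3 hrne ?_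
  by_cases h2 : 2 ∣ r * N
  · exact residuallyModular_of_dvd_p_mul hp2 hΔ hsemi hirr hsmall hrN0 h3rN
      ⟨nuTwo_eq_zero hr hr4 (dvd_mul_right r N), nuThree_eq_zero Nat.prime_two rfl h2⟩
      (mul_dvd_mul_left 3 (dvd_mul_left N r)) hmod
  obtain ⟨q, hgt, hq, hq12⟩ := Nat.forall_exists_prime_gt_and_eq_mod (q := 12) (a := (11 : ZMod 12))
    (IsUnit.of_mul_eq_one (11 : ZMod 12) (by decide)) (r * N + W.Δ.natAbs + 3)
  have hq12' : q % 12 = 11 := by
    have h := congrArg ZMod.val hq12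
    rwa [ZMod.val_natCast] at h
  have hqrN : ¬ q ∣ r * N := fun h => by
    have := Nat.le_of_dvd (Nat.pos_of_ne_zero hrN0) h
    omega
  have hqgood : W.IsGoodPrimeFor q := fun h => by
    have := Nat.le_of_dvd (Int.natAbs_pos.mpr hΔ) (Int.natCast_dvd.mp h)
    omega
  have hq3 : ¬ 3 ∣ q * (r * N) := fun h => (Nat.prime_three.dvd_mul.mp h).elim
    (fun h' => by omega) h3rN
  have h1 := residuallyModular_of_dvd_p_mul hp2 hΔ hsemi hirr hsmall
    (mul_ne_zero hq.ne_zero hrN0) hq3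
    (Fermat.Agent.RT.MazurQ.nuTwo_nuThree_of_prime hq (by omega) (by omega) (dvd_mul_right q _))
    (mul_dvd_mul_left 3 ((dvd_mul_left N r).mul_left q)) hmod
  exact residuallyModular_of_aux_mul hΔ hirr (Nat.not_even_iff_odd.mp fun h => h2 h.two_dvd)
    h3rN hr hr4 (dvd_mul_right r N) hq (by omega) (by omega) hqrN hqgood h1

end Fermat.Agent.RT.AtPGen

end
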